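/-
S29/S42 Program A, leaf (AA) (helper37): complex polynomials in the `j_d` as functions on the
upper half plane, translates of `Γ₀(N)`-invariant functions by cosets, moderate growth.
Everything is obtained from the landed `ℚ̄`-statements of S24 (no port needed).
-/
import Fermat.Agent.S24.Sym

set_option autoImplicit false

open UpperHalfPlane ModularCurve CongruenceSubgroup Filter
open scoped MatrixGroups Manifold

noncomputable section

namespace Fermat.Agent.S29.H37

open Fermat.Agent.S24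

/-! ### Complex polynomials in the `j_d` -/

/-- Evaluation of complex polynomials in the `j_d` as functions on the upper half plane. -/
def ThetaC (N : ℕ) : MvPolynomial (N.divisors) ℂ →+* (ℍ → ℂ) :=
  MvPolynomial.eval₂Hom (Pi.constRingHom ℍ ℂ) (fun d => Jd (d : ℕ))

theorem ThetaC_C (N : ℕ) (a : ℂ) : ThetaC N (MvPolynomial.C a) = fun _ => a := by
  funext τ
  simp [ThetaC]

theorem ThetaC_X (N : ℕ) (d : N.divisors) : ThetaC N (MvPolynomial.X d) = Jd (d : ℕ) := by
  funext τ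
  simp [ThetaC]

/-- On polynomials with coefficients in `ℚ̄` this is the `Theta` of S24. -/
theorem ThetaC_map_iota (N : ℕ) (P : MvPolynomial (N.divisors) Kbar) :
    ThetaC N (MvPolynomial.map iota P) = Theta N P := by
  induction P using MvPolynomial.induction_on with
  | C a => rw [MvPolynomial.map_C, ThetaC_C, Theta_C]
  | add p q hp hq => rw [map_add, map_add, map_add, hp, hq]
  | mul_X p d hp => rw [map_mul, map_mul, map_mul, hp, MvPolynomial.map_X, ThetaC_X, Theta_X]

theorem mdiff_ThetaC (N : ℕ) (P : MvPolynomial (N.divisors) ℂ) : MDiff (ThetaC N P) := by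
  induction P using MvPolynomial.induction_on with
  | C a =>
    rw [ThetaC_C]
    exact mdifferentiable_const
  | add p q hp hq =>
    rw [map_add]
    exact hp.add hq
  | mul_X p d hp =>
    rw [map_mul, ThetaC_X]
    exact hp.mul (mdiff_Jd _)

/-- `Θ_ℂ(P)` is invariant under `Γ₀(N)`. -/
theorem ThetaC_smul_of_mem (N : ℕ) [NeZero N] {γ : SL(2, ℤ)} (hγ : γ ∈ Gamma0 N)
    (P : MvPolynomial (N.divisors) ℂ) (τ : ℍ) : ThetaC N P (γ • τ) = ThetaC N P τ := by
  induction P using MvPolynomial.induction_on with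
  | C a => rw [ThetaC_C]
  | add p q hp hq => rw [map_add, Pi.add_apply, Pi.add_apply, hp, hq]
  | mul_X p d hp =>
    rw [map_mul, Pi.mul_apply, Pi.mul_apply, hp, ThetaC_X, ← Theta_X, Theta_smul_of_mem N hγ]

/-- `Θ_ℂ` of a polynomial in `j = j_1` is that polynomial in `J`. -/
theorem ThetaC_aeval_X_oneDiv (N : ℕ) [NeZero N] (R : Polynomial ℂ) (τ : ℍ) :
    ThetaC N (Polynomial.aeval (MvPolynomial.X (oneDiv N)) R) τ = R.eval (Jfun τ) := by
  have hX : ThetaC N (MvPolynomial.X (oneDiv N)) τ = Jfun τ := by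
    rw [ThetaC_X]
    show Jd 1 τ = Jfun τ
    rw [Jd_one]
  induction R using Polynomial.induction_on with
  | C a =>
    rw [Polynomial.aeval_C, Polynomial.eval_C, MvPolynomial.algebraMap_eq, ThetaC_C]
  | add p q hp hq =>
    rw [map_add, map_add, Pi.add_apply, hp, hq, Polynomial.eval_add]
  | monomial n a ih =>
    rw [pow_succ, ← mul_assoc, map_mul, map_mul, Pi.mul_apply, ih, Polynomial.aeval_X, hX]
    simp only [Polynomial.eval_mul, Polynomial.eval_X]

/-! ### Translates of a `Γ₀(N)`-invariant function by cosets -/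

/-- The translate `f ∘ g_x⁻¹` of a function by the coset `x = g_x Γ₀(N)`. -/
def trf (N : ℕ) (f : ℍ → ℂ) (x : XX N) : ℍ → ℂ :=
  fun τ => f ((Quotient.out x : SL(2, ℤ))⁻¹ • τ)

theorem transl_eq_trf (N : ℕ) (x : XX N) (P : MvPolynomial (N.divisors) Kbar) :
    transl N x P = trf N (Theta N P) x := rfl

theorem trf_mk (N : ℕ) {f : ℍ → ℂ} (hf : ∀ γ ∈ Gamma0 N, ∀ τ : ℍ, f (γ • τ) = f τ)
    (g : SL(2, ℤ)) (τ : ℍ) : trf N f (QuotientGroup.mk g : XX N) τ = f (g⁻¹ • τ) := by
  obtain ⟨h, hh⟩ := QuotientGroup.mk_out_eq_mul (Gamma0 N) g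
  show f ((Quotient.out (QuotientGroup.mk g : XX N) : SL(2, ℤ))⁻¹ • τ) = f (g⁻¹ • τ)
  rw [hh, mul_inv_rev, mul_smul]
  exact hf _ (inv_mem h.2) _

theorem trf_smul (N : ℕ) {f : ℍ → ℂ} (hf : ∀ γ ∈ Gamma0 N, ∀ τ : ℍ, f (γ • τ) = f τ)
    (g : SL(2, ℤ)) (x : XX N) (τ : ℍ) : trf N f (g • x) τ = trf N f x (g⁻¹ • τ) := by
  obtain ⟨a, rfl⟩ := QuotientGroup.mk_surjective x
  have h1 : (g • (QuotientGroup.mk a : XX N)) = (QuotientGroup.mk (g * a) : XX N) := rfl
  rw [h1, trf_mk N hf, trf_mk N hf, mul_inv_rev, mul_smul]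

theorem trf_one (N : ℕ) {f : ℍ → ℂ} (hf : ∀ γ ∈ Gamma0 N, ∀ τ : ℍ, f (γ • τ) = f τ) :
    trf N f (QuotientGroup.mk 1 : XX N) = f := by
  funext τ
  rw [trf_mk N hf, inv_one, one_smul]

theorem mdiff_trf (N : ℕ) {f : ℍ → ℂ} (hf : MDiff f) (x : XX N) : MDiff (trf N f x) := by
  have h1 : MDiff (fun τ : ℍ => ((Quotient.out x : SL(2, ℤ))⁻¹ • τ : ℍ)) := by
    have := UpperHalfPlane.mdifferentiable_smul
      (g := (((Quotient.out x : SL(2, ℤ))⁻¹ : SL(2, ℤ)) : GL (Fin 2) ℝ)) (by simp)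
    exact this
  exact hf.comp h1

/-! ### Moderate growth at `i∞` -/

/-- Moderate growth at `i∞`: some `Δ ^ M * f` is bounded. -/
def ModGrowth (f : ℍ → ℂ) : Prop :=
  ∃ M : ℕ, IsBoundedAtImInfty (fun τ => ModularForm.discriminant τ ^ M * f τ)

theorem isBoundedAtImInfty_discriminant :
    IsBoundedAtImInfty (fun τ : ℍ => ModularForm.discriminant τ) := by
  have h := HasExp.isBoundedAtImInfty 1 (HasExp.const atImInfty (qN 1) (1 : ℂ)) 1 (by
    rw [map_one]
    simp)
  simpa using h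

theorem isBoundedAtImInfty_discriminant_pow (k : ℕ) :
    IsBoundedAtImInfty (fun τ : ℍ => ModularForm.discriminant τ ^ k) := by
  induction k with
  | zero =>
    simp only [pow_zero]
    exact Filter.const_boundedAtFilter _ (1 : ℂ)
  | succ k ih =>
    have h := ih.mul isBoundedAtImInfty_discriminant
    have e : (fun τ : ℍ => ModularForm.discriminant τ ^ (k + 1))
        = (fun τ : ℍ => ModularForm.discriminant τ ^ k) * fun τ => ModularForm.discriminant τ := by
      funext τ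
      simp [pow_succ]
    rw [e]
    exact h

theorem ModGrowth.const (c : ℂ) : ModGrowth (fun _ => c) :=
  ⟨0, by
    simp only [pow_zero, one_mul]
    exact Filter.const_boundedAtFilter _ c⟩

theorem ModGrowth.add {f g : ℍ → ℂ} (hf : ModGrowth f) (hg : ModGrowth g) :
    ModGrowth (f + g) := by
  obtain ⟨M₁, h₁⟩ := hf
  obtain ⟨M₂, h₂⟩ := hg
  refine ⟨M₁ + M₂, ?_⟩
  have h := ((isBoundedAtImInfty_discriminant_pow M₂).mul h₁).add
    ((isBoundedAtImInfty_discriminant_pow M₁).mul h₂)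
  have e : (fun τ : ℍ => ModularForm.discriminant τ ^ (M₁ + M₂) * (f + g) τ)
      = ((fun τ : ℍ => ModularForm.discriminant τ ^ M₂)
          * fun τ => ModularForm.discriminant τ ^ M₁ * f τ)
        + ((fun τ : ℍ => ModularForm.discriminant τ ^ M₁)
          * fun τ => ModularForm.discriminant τ ^ M₂ * g τ) := by
    funext τ
    simp only [Pi.add_apply, Pi.mul_apply]
    ring
  rw [e]
  exact h

theorem ModGrowth.mul {f g : ℍ → ℂ} (hf : ModGrowth f) (hg : ModGrowth g) :
    ModGrowth (f * g) := by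
  obtain ⟨M₁, h₁⟩ := hf
  obtain ⟨M₂, h₂⟩ := hg
  refine ⟨M₁ + M₂, ?_⟩
  have h := h₁.mul h₂
  have e : (fun τ : ℍ => ModularForm.discriminant τ ^ (M₁ + M₂) * (f * g) τ)
      = (fun τ : ℍ => ModularForm.discriminant τ ^ M₁ * f τ)
        * fun τ => ModularForm.discriminant τ ^ M₂ * g τ := by
    funext τ
    simp only [Pi.mul_apply]
    ring
  rw [e]
  exact h

theorem ModGrowth.neg {f : ℍ → ℂ} (hf : ModGrowth f) : ModGrowth (-f) := by
  obtain ⟨M, h⟩ := hf
  refine ⟨M, ?_⟩
  have h' := h.neg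
  have e : (fun τ : ℍ => ModularForm.discriminant τ ^ M * (-f) τ)
      = -fun τ : ℍ => ModularForm.discriminant τ ^ M * f τ := by
    funext τ
    simp
  rw [e]
  exact h'

theorem ModGrowth.of_hasExp (N : ℕ) [NeZero N] {f : ℍ → ℂ} {L : LaurentSeries ℂ}
    (hf : HasExp atImInfty (qN N) f L) : ModGrowth f := by
  refine ⟨(-L.order).toNat, HasExp.isBoundedAtImInfty N hf _ ?_⟩
  have h1 : -L.order ≤ ((-L.order).toNat : ℤ) := Int.self_le_toNat _
  have h2 : ((-L.order).toNat : ℤ) ≤ ((N * (-L.order).toNat : ℕ) : ℤ) := by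
    exact_mod_cast Nat.le_mul_of_pos_left _ (Nat.pos_of_ne_zero (NeZero.ne N))
  omega

/-- The subring of holomorphic functions of moderate growth at `i∞`. -/
def holoGrowth : Subring (ℍ → ℂ) where
  carrier := {f | MDiff f ∧ ModGrowth f}
  zero_mem' := ⟨mdifferentiable_const, ModGrowth.const 0⟩
  one_mem' := ⟨mdifferentiable_const, ModGrowth.const 1⟩
  add_mem' := fun ha hb => ⟨ha.1.add hb.1, ha.2.add hb.2⟩
  mul_mem' := fun ha hb => ⟨ha.1.mul hb.1, ha.2.mul hb.2⟩
  neg_mem' := fun ha => ⟨ha.1.neg, ha.2.neg⟩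

theorem mem_holoGrowth {f : ℍ → ℂ} : f ∈ holoGrowth ↔ MDiff f ∧ ModGrowth f := Iff.rfl

/-- Every translate of a polynomial in the `j_d` has a Laurent expansion at `i∞`. -/
theorem exists_hasExp_trf_ThetaC (N : ℕ) [NeZero N] (x : XX N)
    (P : MvPolynomial (N.divisors) ℂ) :
    ∃ L : LaurentSeries ℂ, HasExp atImInfty (qN N) (trf N (ThetaC N P) x) L := by
  induction P using MvPolynomial.induction_on with
  | C a =>
    refine ⟨HahnSeries.C a, ?_⟩
    have : trf N (ThetaC N (MvPolynomial.C a)) x = fun _ => a := by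
      funext τ
      simp [trf, ThetaC_C]
    rw [this]
    exact HasExp.const _ _ _
  | add p q hp hq =>
    obtain ⟨L₁, h₁⟩ := hp
    obtain ⟨L₂, h₂⟩ := hq
    refine ⟨L₁ + L₂, ?_⟩
    have : trf N (ThetaC N (p + q)) x = trf N (ThetaC N p) x + trf N (ThetaC N q) x := by
      funext τ
      simp [trf]
    rw [this]
    exact h₁.add h₂
  | mul_X p d hp =>
    obtain ⟨L₁, h₁⟩ := hp
    refine ⟨L₁ * coeffMap iota (PhiInf N x (MvPolynomial.X d)), ?_⟩
    have : trf N (ThetaC N (p * MvPolynomial.X d)) x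
        = trf N (ThetaC N p) x * transl N x (MvPolynomial.X d) := by
      funext τ
      simp [trf, transl, ThetaC_X, Theta_X]
    rw [this]
    exact HasExp.mul (Filter.Eventually.of_forall (qN_ne_zero N)) h₁
      (hasExp_PhiInf N x (MvPolynomial.X d))

theorem modGrowth_trf_ThetaC (N : ℕ) [NeZero N] (x : XX N) (P : MvPolynomial (N.divisors) ℂ) :
    ModGrowth (trf N (ThetaC N P) x) := by
  obtain ⟨L, hL⟩ := exists_hasExp_trf_ThetaC N x P
  exact ModGrowth.of_hasExp N hL

/-- Moderate growth of `Θ_ℂ(P)` at every cusp. -/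
theorem modGrowth_ThetaC_smul (N : ℕ) [NeZero N] (g : SL(2, ℤ))
    (P : MvPolynomial (N.divisors) ℂ) : ModGrowth (fun τ => ThetaC N P (g • τ)) := by
  have h := modGrowth_trf_ThetaC N (QuotientGroup.mk g⁻¹ : XX N) P
  have : trf N (ThetaC N P) (QuotientGroup.mk g⁻¹ : XX N) = fun τ => ThetaC N P (g • τ) := by
    funext τ
    rw [trf_mk N (fun γ hγ τ => ThetaC_smul_of_mem N hγ P τ), inv_inv]
  rwa [this] at h

end Fermat.Agent.S29.H37
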