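/-
S29/S42 Program A, leaf (AA) (helper37): ANALYTIC = ALGEBRAIC over `ℂ`.

A holomorphic `Γ₀(N)`-invariant function on the upper half plane which has moderate growth at
every cusp is a quotient of complex polynomials in the `j_d = J(d τ)`, `d ∣ N`, with a
universal denominator (`Φ'(J_N)`, the derivative of the modular polynomial at `J_N`):

  `exists_ThetaC_of_invariant`, `exists_universal_denominator`.

Method: Lagrange sums over the cosets `SL(2,ℤ)/Γ₀(N)`; their coefficients are holomorphic,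
`SL(2,ℤ)`-invariant and of moderate growth, hence polynomials in `J`
(landed `S24.H6.exists_poly_of_invariant`); the translates of `J_N` are distinct
(landed `S24.transl_injective`).
-/
import Fermat.Agent.S29.H37.ThetaC

set_option autoImplicit false

open UpperHalfPlane ModularCurve CongruenceSubgroup Filter Topology
open scoped MatrixGroups Manifold

noncomputable section

namespace Fermat.Agent.S29.H37

open Fermat.Agent.S24

/-! ### Lagrange polynomials -/

section Lagrange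

variable {X : Type*} [Fintype X] [DecidableEq X] {R S : Type*} [CommRing R] [CommRing S]

/-- The Lagrange polynomial `∑ₓ wₓ ∏_{y ≠ x} (T - t_y)`. -/
def lagr (w t : X → R) : Polynomial R :=
  ∑ x, Polynomial.C (w x) * ∏ y, if y = x then 1 else (Polynomial.X - Polynomial.C (t y))

theorem lagr_map (φ : R →+* S) (w t : X → R) :
    (lagr w t).map φ = lagr (fun x => φ (w x)) (fun x => φ (t x)) := by
  unfold lagr
  rw [Polynomial.map_sum]
  refine Finset.sum_congr rfl fun x _ => ?_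
  rw [Polynomial.map_mul, Polynomial.map_C, Polynomial.map_prod]
  congr 1
  refine Finset.prod_congr rfl fun y _ => ?_
  split_ifs
  · simp
  · simp

theorem lagr_comp_equiv (e : X ≃ X) (w t : X → R) :
    lagr (fun x => w (e x)) (fun x => t (e x)) = lagr w t := by
  unfold lagr
  refine Fintype.sum_equiv e _ _ fun x => ?_
  congr 1
  refine Fintype.prod_equiv e _ _ fun y => ?_
  simp only [EmbeddingLike.apply_eq_iff_eq]

theorem lagr_eval (w t : X → R) (x₀ : X) :
    (lagr w t).eval (t x₀) = w x₀ * ∏ y, if y = x₀ then 1 else (t x₀ - t y) := by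
  unfold lagr
  rw [Polynomial.eval_finsetSum]
  rw [Finset.sum_eq_single x₀]
  · rw [Polynomial.eval_mul, Polynomial.eval_C, Polynomial.eval_prod]
    congr 1
    refine Finset.prod_congr rfl fun y _ => ?_
    split_ifs
    · simp
    · simp
  · intro x _ hx
    rw [Polynomial.eval_mul, Polynomial.eval_prod]
    have : (∏ y, Polynomial.eval (t x₀)
        (if y = x then (1 : Polynomial R) else Polynomial.X - Polynomial.C (t y))) = 0 := by
      refine Finset.prod_eq_zero (Finset.mem_univ x₀) ?_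
      rw [if_neg (Ne.symm hx)]
      simp
    rw [this, mul_zero]
  · intro h
    exact absurd (Finset.mem_univ x₀) h

theorem lagr_coeff_mem (A : Subring R) (w t : X → R) (hw : ∀ x, w x ∈ A) (ht : ∀ x, t x ∈ A)
    (k : ℕ) : (lagr w t).coeff k ∈ A := by
  have h := lagr_map A.subtype (fun x => (⟨w x, hw x⟩ : A)) (fun x => (⟨t x, ht x⟩ : A))
  have h' : lagr w t
      = (lagr (fun x => (⟨w x, hw x⟩ : A)) (fun x => (⟨t x, ht x⟩ : A))).map A.subtype := by
    rw [h]
    rfl
  rw [h', Polynomial.coeff_map]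
  exact Subtype.coe_prop _

end Lagrange

/-! ### Finitely many non-zero holomorphic functions have a common non-zero -/

theorem exists_forall_ne_zero {ι : Type*} [Finite ι] (f : ι → ℍ → ℂ) (hf : ∀ i, MDiff (f i))
    (h0 : ∀ i, f i ≠ 0) : ∃ τ : ℍ, ∀ i, f i τ ≠ 0 := by
  have han : ∀ i, AnalyticOnNhd ℂ (f i ∘ ofComplex) {z : ℂ | 0 < z.im} := fun i =>
    (UpperHalfPlane.mdifferentiable_iff.mp (hf i)).analyticOnNhd isOpen_upperHalfPlaneSet
  have hI : Complex.I ∈ {z : ℂ | 0 < z.im} := by simp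
  have hU : {z : ℂ | 0 < z.im} ∈ 𝓝 Complex.I := isOpen_upperHalfPlaneSet.mem_nhds hI
  have key : ∀ i, ∀ᶠ z in 𝓝[≠] Complex.I, (f i ∘ ofComplex) z ≠ 0 := by
    intro i
    rcases (han i Complex.I hI).eventually_eq_zero_or_eventually_ne_zero with h | h
    · exfalso
      apply h0 i
      have h2 := (han i).eqOn_zero_of_preconnected_of_eventuallyEq_zero
        (Convex.isPreconnected (convex_halfSpace_im_gt 0)) hI h
      funext τ
      have := h2 τ.im_pos
      simpa using this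
    · exact h
  have hall : ∀ᶠ z in 𝓝[≠] Complex.I, ∀ i, (f i ∘ ofComplex) z ≠ 0 :=
    Filter.eventually_all.mpr key
  have hU' : ∀ᶠ z in 𝓝[≠] Complex.I, z ∈ {z : ℂ | 0 < z.im} :=
    nhdsWithin_le_nhds hU
  obtain ⟨z, hz, hz'⟩ := (hall.and hU').exists
  refine ⟨⟨z, hz'⟩, fun i => ?_⟩
  have := hz i
  simp only [Function.comp_apply] at this
  rwa [ofComplex_apply_of_im_pos hz'] at this

/-! ### The main theorem -/

section Main

variable (N : ℕ) [NeZero N]

/-- Precomposition with the action of `g` as a ring endomorphism of the functions on `ℍ`. -/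
def precomp (g : SL(2, ℤ)) : (ℍ → ℂ) →+* (ℍ → ℂ) :=
  RingHom.pi fun τ => Pi.evalRingHom (fun _ : ℍ => ℂ) (g • τ)

@[simp] theorem precomp_apply (g : SL(2, ℤ)) (f : ℍ → ℂ) (τ : ℍ) : precomp g f τ = f (g • τ) :=
  rfl

/-- The translates of `J_N = J(Nτ)`. -/
def tJ (y : XX N) : ℍ → ℂ := transl N y (MvPolynomial.X (topDiv N))

theorem tJ_one : tJ N (QuotientGroup.mk 1 : XX N) = Jd N := by
  funext τ
  rw [tJ, transl_mk, inv_one, one_smul, Theta_X]
  rfl

theorem tJ_mem (y : XX N) : tJ N y ∈ holoGrowth :=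
  ⟨mdiff_transl N y _, ModGrowth.of_hasExp N (hasExp_PhiInf N y _)⟩

/-- The universal denominator, as a function: `∏_{y ≠ 1} (J_N - J_N ∘ g_y⁻¹) = Φ'(J_N)`. -/
def denomFun [Fintype (XX N)] [DecidableEq (XX N)] (τ : ℍ) : ℂ :=
  ∏ y : XX N, if y = (QuotientGroup.mk 1 : XX N) then 1 else (Jd N τ - tJ N y τ)

theorem exists_denomFun_ne_zero [Fintype (XX N)] [DecidableEq (XX N)] :
    ∃ τ : ℍ, denomFun N τ ≠ 0 := by
  obtain ⟨τ, hτ⟩ := exists_forall_ne_zero
    (fun y : {y : XX N // y ≠ (QuotientGroup.mk 1 : XX N)} => Jd N - tJ N y.1)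
    (fun y => (mdiff_Jd N).sub (mdiff_transl N y.1 _))
    (fun y h => y.2 (by
      have h1 : tJ N (QuotientGroup.mk 1 : XX N) = tJ N y.1 := by
        rw [tJ_one]
        exact sub_eq_zero.mp h
      exact (transl_injective N h1).symm))
  refine ⟨τ, ?_⟩
  unfold denomFun
  rw [Finset.prod_ne_zero_iff]
  intro y _
  split_ifs with hy
  · exact one_ne_zero
  · exact hτ ⟨y, hy⟩

/-- **Lagrange interpolation over the cosets.**  For `W` holomorphic, `Γ₀(N)`-invariant and of
moderate growth at all cusps, `W · Φ'(J_N)` is a complex polynomial in `J` and `J_N`. -/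
theorem exists_lagrange_poly [Fintype (XX N)] [DecidableEq (XX N)] {W : ℍ → ℂ} (hW : MDiff W)
    (hinv : ∀ γ ∈ Gamma0 N, ∀ τ : ℍ, W (γ • τ) = W τ)
    (hgrow : ∀ g : SL(2, ℤ), ModGrowth (fun τ => W (g • τ))) :
    ∃ A : MvPolynomial (N.divisors) ℂ, ∀ τ : ℍ, W τ * denomFun N τ = ThetaC N A τ := by
  classical
  set w : XX N → ℍ → ℂ := trf N W with hw
  set Ψ : Polynomial (ℍ → ℂ) := lagr w (tJ N) with hΨ
  -- the coefficients are holomorphic of moderate growth
  have hwmem : ∀ x, w x ∈ holoGrowth := fun x =>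
    ⟨mdiff_trf N hW x, hgrow (Quotient.out x : SL(2, ℤ))⁻¹⟩
  have hcoeff : ∀ k, Ψ.coeff k ∈ holoGrowth := fun k =>
    lagr_coeff_mem holoGrowth w (tJ N) hwmem (tJ_mem N) k
  -- the coefficients are `SL(2,ℤ)`-invariant
  have hmap : ∀ γ : SL(2, ℤ), Ψ.map (precomp γ) = Ψ := by
    intro γ
    rw [hΨ, lagr_map]
    have h1 : (fun x => precomp γ (w x))
        = fun x => w ((MulAction.toPerm γ⁻¹ : Equiv.Perm (XX N)) x) := by
      funext x τ
      rw [precomp_apply, MulAction.toPerm_apply, hw, trf_smul N hinv, inv_inv]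
    have h2 : (fun x => precomp γ (tJ N x))
        = fun x => tJ N ((MulAction.toPerm γ⁻¹ : Equiv.Perm (XX N)) x) := by
      funext x τ
      rw [precomp_apply, MulAction.toPerm_apply, tJ, tJ, H49.transl_smul]
    rw [h1, h2]
    exact lagr_comp_equiv _ w (tJ N)
  have hcinv : ∀ (k : ℕ) (γ : SL(2, ℤ)) (τ : ℍ), Ψ.coeff k (γ • τ) = Ψ.coeff k τ := by
    intro k γ τ
    have h := congrArg (fun p : Polynomial (ℍ → ℂ) => p.coeff k τ) (hmap γ)
    simpa [Polynomial.coeff_map] using h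
  -- hence polynomials in `J`
  have hR : ∀ k, ∃ R : Polynomial ℂ, ∀ τ, Ψ.coeff k τ = R.eval (Jfun τ) := by
    intro k
    obtain ⟨M, hM⟩ := (hcoeff k).2
    obtain ⟨R, -, hR⟩ := H6.exists_poly_of_invariant M (Ψ.coeff k) (hcoeff k).1 (hcinv k) hM
    exact ⟨R, hR⟩
  choose R hR using hR
  refine ⟨∑ k ∈ Finset.range (Ψ.natDegree + 1),
    Polynomial.aeval (MvPolynomial.X (oneDiv N)) (R k) * MvPolynomial.X (topDiv N) ^ k,
    fun τ => ?_⟩
  -- evaluate the Lagrange polynomial at `J_N`, pointwise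
  have hev := lagr_map (Pi.evalRingHom (fun _ : ℍ => ℂ) τ) w (tJ N)
  have hx₀ : Pi.evalRingHom (fun _ : ℍ => ℂ) τ (tJ N (QuotientGroup.mk 1 : XX N))
      = Jd N τ := by
    show tJ N (QuotientGroup.mk 1 : XX N) τ = Jd N τ
    rw [tJ_one]
  have h3 := lagr_eval (fun x => Pi.evalRingHom (fun _ : ℍ => ℂ) τ (w x))
    (fun x => Pi.evalRingHom (fun _ : ℍ => ℂ) τ (tJ N x)) (QuotientGroup.mk 1 : XX N)
  rw [← hev, hx₀, Polynomial.eval_map, Polynomial.eval₂_eq_sum_range] at h3
  have hw1 : w (QuotientGroup.mk 1 : XX N) τ = W τ := by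
    rw [hw, trf_one N hinv]
  have h4 : W τ * denomFun N τ
      = ∑ i ∈ Finset.range (Ψ.natDegree + 1), Ψ.coeff i τ * Jd N τ ^ i := by
    have h5 : (∑ i ∈ Finset.range (Ψ.natDegree + 1), Ψ.coeff i τ * Jd N τ ^ i)
        = w (QuotientGroup.mk 1 : XX N) τ * denomFun N τ := h3
    rw [h5, hw1]
  rw [h4, map_sum, Finset.sum_apply]
  refine Finset.sum_congr rfl fun k _ => ?_
  rw [map_mul, map_pow, Pi.mul_apply, Pi.pow_apply, ThetaC_aeval_X_oneDiv, ThetaC_X, hR k]
  rfl

/-- **Universal denominator.**  There is a complex polynomial `B` in `J`, `J_N` with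
`Θ_ℂ(B) ≠ 0` such that `W · Θ_ℂ(B)` is a complex polynomial in `J`, `J_N` for EVERY holomorphic
`Γ₀(N)`-invariant function `W` of moderate growth at all cusps. -/
theorem exists_universal_denominator :
    ∃ B : MvPolynomial (N.divisors) ℂ, ThetaC N B ≠ 0 ∧
      ∀ W : ℍ → ℂ, MDiff W → (∀ γ ∈ Gamma0 N, ∀ τ : ℍ, W (γ • τ) = W τ) →
        (∀ g : SL(2, ℤ), ModGrowth (fun τ => W (g • τ))) →
        ∃ A : MvPolynomial (N.divisors) ℂ, ∀ τ : ℍ, W τ * ThetaC N B τ = ThetaC N A τ := by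
  classical
  have : Fintype (XX N) := Fintype.ofFinite _
  obtain ⟨B, hB⟩ := exists_lagrange_poly N (W := fun _ => 1) mdifferentiable_const
    (fun _ _ _ => rfl) (fun _ => ModGrowth.const 1)
  have hB' : ∀ τ, ThetaC N B τ = denomFun N τ := fun τ => by rw [← hB τ, one_mul]
  refine ⟨B, ?_, fun W hW hinv hgrow => ?_⟩
  · obtain ⟨τ, hτ⟩ := exists_denomFun_ne_zero N
    intro h
    apply hτ
    rw [← hB' τ, h]
    rfl
  · obtain ⟨A, hA⟩ := exists_lagrange_poly N hW hinv hgrow
    exact ⟨A, fun τ => by rw [hB' τ, hA τ]⟩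

/-- **ANALYTIC = ALGEBRAIC over `ℂ`** (leaf (AA)).  A holomorphic `Γ₀(N)`-invariant function on
`ℍ` such that every `SL(2,ℤ)`-translate is `Δ^M`-bounded at `i∞` is a quotient of complex
polynomials in the `j_d`. -/
theorem exists_ThetaC_of_invariant {W : ℍ → ℂ} (hW : MDiff W)
    (hinv : ∀ γ ∈ Gamma0 N, ∀ τ : ℍ, W (γ • τ) = W τ)
    (hgrow : ∀ g : SL(2, ℤ), ∃ M : ℕ,
      IsBoundedAtImInfty (fun τ => ModularForm.discriminant τ ^ M * W (g • τ))) :
    ∃ A B : MvPolynomial (N.divisors) ℂ, ThetaC N B ≠ 0 ∧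
      ∀ τ : ℍ, W τ * ThetaC N B τ = ThetaC N A τ := by
  obtain ⟨B, hB0, hB⟩ := exists_universal_denominator N
  obtain ⟨A, hA⟩ := hB W hW hinv hgrow
  exact ⟨A, B, hB0, hA⟩

end Main

end Fermat.Agent.S29.H37
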