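/-
S29/S42 Program A, leaf (AA') (helper37): the Kummer step.

A holomorphic `Γ₀(N)`-invariant function on `ℍ` whose `p`-th power is a polynomial in the `j_d`
(more generally: has moderate growth at all cusps) is a quotient of polynomials in the `j_d`;
and the "meromorphic" form: if `W ^ p = Θ_ℂ(A₀) / Θ_ℂ(B₀)` and `W · Θ_ℂ(B₀)` is holomorphic then
`W = Θ_ℂ(A) / Θ_ℂ(B)`.
-/
import Fermat.Agent.S29.H37.AnalyticAlgebraic

set_option autoImplicit false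

open UpperHalfPlane ModularCurve CongruenceSubgroup Filter Topology
open scoped MatrixGroups Manifold

noncomputable section

namespace Fermat.Agent.S29.H37

open Fermat.Agent.S24

/-- A function whose `p`-th power is bounded at `i∞` is bounded at `i∞`. -/
theorem isBoundedAtImInfty_of_pow {f : ℍ → ℂ} {p : ℕ} (hp : 0 < p)
    (h : IsBoundedAtImInfty (fun τ => f τ ^ p)) : IsBoundedAtImInfty f := by
  rw [UpperHalfPlane.isBoundedAtImInfty_iff] at h ⊢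
  obtain ⟨M, A, hMA⟩ := h
  refine ⟨max 1 M, A, fun z hz => ?_⟩
  have h1 := hMA z hz
  rw [norm_pow] at h1
  by_cases h2 : ‖f z‖ ≤ 1
  · exact h2.trans (le_max_left _ _)
  · have h2' : 1 < ‖f z‖ := not_le.mp h2
    have h3 : ‖f z‖ ≤ ‖f z‖ ^ p := le_self_pow₀ h2'.le hp.ne'
    exact (h3.trans h1).trans (le_max_right _ _)

/-- Moderate growth of a power gives moderate growth. -/
theorem ModGrowth.of_pow {f : ℍ → ℂ} {p : ℕ} (hp : 0 < p)
    (h : ModGrowth (fun τ => f τ ^ p)) : ModGrowth f := by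
  obtain ⟨M, hM⟩ := h
  refine ⟨M, isBoundedAtImInfty_of_pow hp ?_⟩
  obtain ⟨k, rfl⟩ : ∃ k, p = k + 1 := ⟨p - 1, by omega⟩
  have h := (isBoundedAtImInfty_discriminant_pow (M * k)).mul hM
  have e : (fun τ : ℍ => (ModularForm.discriminant τ ^ M * f τ) ^ (k + 1))
      = (fun τ : ℍ => ModularForm.discriminant τ ^ (M * k))
        * fun τ => ModularForm.discriminant τ ^ M * f τ ^ (k + 1) := by
    funext τ
    simp only [Pi.mul_apply]
    ring
  rw [e]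
  exact h

variable (N : ℕ) [NeZero N]

/-- **(AA'), holomorphic form.**  A holomorphic `Γ₀(N)`-invariant `V` such that some power
`V ^ p`, `p ≥ 1`, has moderate growth at all cusps is a quotient of polynomials in the `j_d`. -/
theorem exists_ThetaC_of_pow_growth {V : ℍ → ℂ} (hV : MDiff V)
    (hinv : ∀ γ ∈ Gamma0 N, ∀ τ : ℍ, V (γ • τ) = V τ) {p : ℕ} (hp : 0 < p)
    (hgrow : ∀ g : SL(2, ℤ), ModGrowth (fun τ => V (g • τ) ^ p)) :
    ∃ A B : MvPolynomial (N.divisors) ℂ, ThetaC N B ≠ 0 ∧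
      ∀ τ : ℍ, V τ * ThetaC N B τ = ThetaC N A τ :=
  exists_ThetaC_of_invariant N hV hinv fun g => ModGrowth.of_pow hp (hgrow g)

/-- **(AA'), Kummer form.**  A holomorphic `Γ₀(N)`-invariant `V` with `V ^ p = Θ_ℂ(C₀)`, `p ≥ 1`,
is a quotient of polynomials in the `j_d`. -/
theorem exists_ThetaC_of_pow_eq {V : ℍ → ℂ} (hV : MDiff V)
    (hinv : ∀ γ ∈ Gamma0 N, ∀ τ : ℍ, V (γ • τ) = V τ) {p : ℕ} (hp : 0 < p)
    (C₀ : MvPolynomial (N.divisors) ℂ) (hpow : ∀ τ : ℍ, V τ ^ p = ThetaC N C₀ τ) :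
    ∃ A B : MvPolynomial (N.divisors) ℂ, ThetaC N B ≠ 0 ∧
      ∀ τ : ℍ, V τ * ThetaC N B τ = ThetaC N A τ := by
  refine exists_ThetaC_of_pow_growth N hV hinv hp fun g => ?_
  have h := modGrowth_ThetaC_smul N g C₀
  have e : (fun τ : ℍ => V (g • τ) ^ p) = fun τ => ThetaC N C₀ (g • τ) := by
    funext τ
    exact hpow _
  rw [e]
  exact h

omit [NeZero N] in
/-- The product of two non-zero functions `Θ_ℂ(P)`, `Θ_ℂ(Q)` is non-zero. -/
theorem ThetaC_mul_ne_zero {P Q : MvPolynomial (N.divisors) ℂ} (hP : ThetaC N P ≠ 0)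
    (hQ : ThetaC N Q ≠ 0) : ThetaC N (P * Q) ≠ 0 := by
  obtain ⟨τ, hτ⟩ := exists_forall_ne_zero
    (fun b : Bool => if b then ThetaC N P else ThetaC N Q)
    (fun b => by
      cases b
      · exact mdiff_ThetaC N Q
      · exact mdiff_ThetaC N P)
    (fun b => by
      cases b
      · exact hQ
      · exact hP)
  intro h
  have h1 := congrFun h τ
  rw [map_mul, Pi.mul_apply, Pi.zero_apply, mul_eq_zero] at h1
  rcases h1 with h1 | h1
  · exact hτ true h1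
  · exact hτ false h1

omit [NeZero N] in
/-- `Θ_ℂ(P) = 0` or `Θ_ℂ(Q) = 0` if `Θ_ℂ(P Q) = 0`: the ring of the `Θ_ℂ(P)` is a domain. -/
theorem ThetaC_mul_eq_zero {P Q : MvPolynomial (N.divisors) ℂ} (h : ThetaC N (P * Q) = 0) :
    ThetaC N P = 0 ∨ ThetaC N Q = 0 := by
  by_contra hne
  rw [not_or] at hne
  exact ThetaC_mul_ne_zero N hne.1 hne.2 h

/-- **(AA'), meromorphic form.**  Let `W` be a `Γ₀(N)`-invariant function on `ℍ` with
`W ^ p · Θ_ℂ(B₀) = Θ_ℂ(A₀)`, `Θ_ℂ(B₀) ≠ 0`, `p ≥ 1`, such that `W · Θ_ℂ(B₀)` is holomorphic.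
Then `W · Θ_ℂ(B) = Θ_ℂ(A)` for polynomials `A`, `B` with `Θ_ℂ(B) ≠ 0`:
an invariant `p`-th root of an element of `ℂ(j_d)` lies in `ℂ(j_d)`. -/
theorem exists_ThetaC_of_root {W : ℍ → ℂ}
    (hinv : ∀ γ ∈ Gamma0 N, ∀ τ : ℍ, W (γ • τ) = W τ) {p : ℕ} (hp : 0 < p)
    (A₀ B₀ : MvPolynomial (N.divisors) ℂ) (hB₀ : ThetaC N B₀ ≠ 0)
    (hpow : ∀ τ : ℍ, W τ ^ p * ThetaC N B₀ τ = ThetaC N A₀ τ)
    (hhol : MDiff (fun τ => W τ * ThetaC N B₀ τ)) :
    ∃ A B : MvPolynomial (N.divisors) ℂ, ThetaC N B ≠ 0 ∧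
      ∀ τ : ℍ, W τ * ThetaC N B τ = ThetaC N A τ := by
  obtain ⟨k, rfl⟩ : ∃ k, p = k + 1 := ⟨p - 1, by omega⟩
  obtain ⟨A, B, hB, hAB⟩ := exists_ThetaC_of_pow_eq N hhol
    (fun γ hγ τ => by
      show W (γ • τ) * ThetaC N B₀ (γ • τ) = W τ * ThetaC N B₀ τ
      rw [hinv γ hγ, ThetaC_smul_of_mem N hγ])
    hp (A₀ * B₀ ^ k) (fun τ => by
      show (W τ * ThetaC N B₀ τ) ^ (k + 1) = ThetaC N (A₀ * B₀ ^ k) τ
      rw [map_mul, map_pow, Pi.mul_apply, Pi.pow_apply, ← hpow τ]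
      ring)
  refine ⟨A, B₀ * B, ThetaC_mul_ne_zero N hB₀ hB, fun τ => ?_⟩
  rw [map_mul, Pi.mul_apply, ← mul_assoc]
  exact hAB τ

end Fermat.Agent.S29.H37
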