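/-
S29/S42 Program A (helper37): the function field `M_ℂ = ℂ(j_d : d ∣ N) ⊂ ℂ((q))`
(`laurentBaseChange ℂ (modularFunctionFieldFull N)` of the Prelude) and its analytic dictionary:

* `hasExp_ThetaC`   : the expansion at `i∞` of `Θ_ℂ(P)` is the formal element `P(j_d)`;
* `ThetaC_eq_zero_iff` : `Θ_ℂ(P) = 0 ↔ P(j_d) = 0` in `M_ℂ`  (KER over `ℂ`);
* `evFC_frac`       : every element of `M_ℂ` is `P(j_d) / Q(j_d)`;
* `iotaF`           : the embedding `F = ℚ̄(j_d) → M_ℂ` (coefficientwise `iota`);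
* `exists_FC_of_invariant` : (AA) with values in `M_ℂ`.
-/
import Fermat.Agent.S29.H37.Kummer
import Fermat.Agent.S24.Ker

set_option autoImplicit false

open UpperHalfPlane ModularCurve CongruenceSubgroup Filter Topology
open scoped MatrixGroups Manifold

noncomputable section

namespace Fermat.Agent.S29.H37

open Fermat.Agent.S24

/-- The function field `M_ℂ = ℂ(j_d : d ∣ N) ⊂ ℂ((q))`. -/
abbrev FC (N : ℕ) : Type := ↥(laurentBaseChange ℂ (modularFunctionFieldFull N))

/-- The generator `j_d = j(q^d)` of `M_ℂ`. -/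
def jFC (N : ℕ) (d : N.divisors) : FC N :=
  ⟨coeffEmb ℂ (qExpand ℚ (d : ℕ) jq),
    coeffEmb_mem_laurentBaseChange ℂ (jqd_mem_full N (Nat.dvd_of_mem_divisors d.2))⟩

/-- Evaluation of complex polynomials in the `j_d` inside `M_ℂ`. -/
def evFC (N : ℕ) : MvPolynomial (N.divisors) ℂ →ₐ[ℂ] FC N := MvPolynomial.aeval (jFC N)

theorem coe_jFC (N : ℕ) (d : N.divisors) :
    ((jFC N d : FC N) : LaurentSeries ℂ) = qExpand ℂ (d : ℕ) (jqModC ℂ) := by
  show coeffEmb ℂ (qExpand ℚ (d : ℕ) jq) = _
  rw [coeffEmb, coeffMap_qExpand, ← jqModC_rat]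
  congr 1
  exact map_jqModC (algebraMap ℚ ℂ)

theorem coeffMap_iota_coe_jF (N : ℕ) (d : N.divisors) :
    coeffMap iota ((jF N d : FF N) : LaurentSeries Kbar) = ((jFC N d : FC N) : LaurentSeries ℂ) := by
  rw [coe_jF, coe_jFC, coeffMap_qExpand, coeffMap_iota_jqModC]

theorem coe_evFC_C (N : ℕ) (a : ℂ) :
    ((evFC N (MvPolynomial.C a) : FC N) : LaurentSeries ℂ) = HahnSeries.C a := by
  rw [evFC, MvPolynomial.aeval_C]
  show algebraMap ℂ (LaurentSeries ℂ) a = _
  rw [algebraMap_laurentSeries_eq_single, HahnSeries.C_apply]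

theorem coe_evFC_X (N : ℕ) (d : N.divisors) :
    ((evFC N (MvPolynomial.X d) : FC N) : LaurentSeries ℂ) = qExpand ℂ (d : ℕ) (jqModC ℂ) := by
  rw [evFC, MvPolynomial.aeval_X, coe_jFC]

/-- The coercion `M_ℂ → ℂ((q))` composed with `evFC`, as a ring homomorphism. -/
def evFCL (N : ℕ) : MvPolynomial (N.divisors) ℂ →+* LaurentSeries ℂ :=
  (laurentBaseChange ℂ (modularFunctionFieldFull N)).val.toRingHom.comp (evFC N).toRingHom

theorem evFCL_apply (N : ℕ) (P : MvPolynomial (N.divisors) ℂ) :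
    evFCL N P = ((evFC N P : FC N) : LaurentSeries ℂ) := rfl

variable (N : ℕ) [NeZero N]

/-- The expansion at `i∞` of `Θ_ℂ(P)` (in the parameter `e^{2πiτ/N}`) is the formal element
`P(j_d)` of `M_ℂ ⊂ ℂ((q))`. -/
theorem hasExp_ThetaC (P : MvPolynomial (N.divisors) ℂ) :
    HasExp atImInfty (qN N) (ThetaC N P)
      (qExpand ℂ N ((evFC N P : FC N) : LaurentSeries ℂ)) := by
  induction P using MvPolynomial.induction_on with
  | C a =>
    rw [coe_evFC_C, qExpand_C, ThetaC_C]
    exact HasExp.const _ _ _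
  | add p q hp hq =>
    have h1 : ((evFC N (p + q) : FC N) : LaurentSeries ℂ)
        = ((evFC N p : FC N) : LaurentSeries ℂ) + ((evFC N q : FC N) : LaurentSeries ℂ) :=
      map_add (evFCL N) p q
    rw [h1, map_add, map_add]
    exact hp.add hq
  | mul_X p d hp =>
    have h1 : ((evFC N (p * MvPolynomial.X d) : FC N) : LaurentSeries ℂ)
        = ((evFC N p : FC N) : LaurentSeries ℂ)
          * ((evFC N (MvPolynomial.X d) : FC N) : LaurentSeries ℂ) :=
      map_mul (evFCL N) p (MvPolynomial.X d)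
    rw [h1, map_mul, map_mul, coe_evFC_X, qExpand_qExpand, ThetaC_X]
    have h2 := H88.hasExp_Jd N (d : ℕ)
    rw [coeffMap_qExpand, coeffMap_iota_jqModC] at h2
    exact HasExp.mul (Filter.Eventually.of_forall (qN_ne_zero N)) hp h2

/-- **KER over `ℂ`**: `Θ_ℂ(P) = 0 ↔ P(j_d) = 0` in `M_ℂ`. -/
theorem ThetaC_eq_zero_iff (P : MvPolynomial (N.divisors) ℂ) :
    ThetaC N P = 0 ↔ evFC N P = 0 := by
  constructor
  · intro h
    have h1 := hasExp_ThetaC N P
    have h2 : qExpand ℂ N ((evFC N P : FC N) : LaurentSeries ℂ) = 0 :=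
      HasExp.eq_zero (tendsto_qN N) h1 (by rw [h])
    have h3 : ((evFC N P : FC N) : LaurentSeries ℂ) = 0 :=
      qExpand_injective (R := ℂ) N (h2.trans (map_zero _).symm)
    exact Subtype.ext h3
  · intro h
    have h1 := hasExp_ThetaC N P
    rw [h] at h1
    have h2 : qExpand ℂ N (((0 : FC N) : FC N) : LaurentSeries ℂ) = 0 := map_zero _
    rw [h2] at h1
    exact H88.eq_zero_of_eventuallyEq_atImInfty (mdiff_ThetaC N P) h1.eventuallyEq_zero

theorem ThetaC_ne_zero_iff (P : MvPolynomial (N.divisors) ℂ) :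
    ThetaC N P ≠ 0 ↔ evFC N P ≠ 0 :=
  (ThetaC_eq_zero_iff N P).not

/-- `coeffEmb` maps rational constants to constants. -/
theorem coeffEmb_algebraMap_C (r : ℚ) :
    coeffEmb ℂ (algebraMap ℚ (LaurentSeries ℚ) r)
      = algebraMap ℂ (LaurentSeries ℂ) (algebraMap ℚ ℂ r) := by
  rw [algebraMap_laurentSeries_eq_single, algebraMap_laurentSeries_eq_single, coeffEmb,
    coeffMap_single]

/-- `M_ℂ` is generated over `ℂ` by the `j_d`, `d ∣ N`. -/
theorem FC_eq_adjoin :
    laurentBaseChange ℂ (modularFunctionFieldFull N) = IntermediateField.adjoin ℂ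
      (Set.range fun d : N.divisors => ((jFC N d : FC N) : LaurentSeries ℂ)) := by
  apply le_antisymm
  · have key : ∀ x ∈ IntermediateField.adjoin ℚ (divisorExpansions N),
        coeffEmb ℂ x ∈ IntermediateField.adjoin ℂ
          (Set.range fun d : N.divisors => ((jFC N d : FC N) : LaurentSeries ℂ)) := by
      intro x hx
      induction hx using IntermediateField.adjoin_induction with
      | mem y hy =>
        obtain ⟨d, hd0, hdN, rfl⟩ := hy
        refine IntermediateField.subset_adjoin ℂ _ ?_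
        exact ⟨⟨d, Nat.mem_divisors.mpr ⟨hdN, NeZero.ne N⟩⟩, rfl⟩
      | algebraMap r =>
        rw [coeffEmb_algebraMap_C]
        exact IntermediateField.algebraMap_mem _ _
      | add y z _ _ hy hz =>
        rw [map_add]
        exact add_mem hy hz
      | inv y _ hy =>
        rw [map_inv₀]
        exact inv_mem hy
      | mul y z _ _ hy hz =>
        rw [map_mul]
        exact mul_mem hy hz
    show IntermediateField.adjoin ℂ
        (⇑(coeffEmb ℂ) '' (modularFunctionFieldFull N : Set (LaurentSeries ℚ))) ≤ _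
    rw [IntermediateField.adjoin_le_iff]
    rintro _ ⟨x, hx, rfl⟩
    exact key x hx
  · rw [IntermediateField.adjoin_le_iff]
    rintro _ ⟨d, rfl⟩
    exact (jFC N d).2

/-- Every element of `M_ℂ` is a quotient `P(j_d) / Q(j_d)`. -/
theorem evFC_frac (f : FC N) :
    ∃ P Q : MvPolynomial (N.divisors) ℂ, evFC N Q ≠ 0 ∧ f = evFC N P / evFC N Q := by
  have hf : (f : LaurentSeries ℂ) ∈ IntermediateField.adjoin ℂ
      (Set.range fun d : N.divisors => ((jFC N d : FC N) : LaurentSeries ℂ)) := by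
    rw [← FC_eq_adjoin]
    exact f.2
  rw [IntermediateField.mem_adjoin_iff_div] at hf
  obtain ⟨r, hr, s, hs, hfrs⟩ := hf
  rw [Algebra.adjoin_range_eq_range_aeval] at hr hs
  obtain ⟨P, rfl⟩ := hr
  obtain ⟨Q, rfl⟩ := hs
  simp only [AlgHom.toRingHom_eq_coe, RingHom.coe_coe] at hfrs
  have hcoe : ∀ P : MvPolynomial (N.divisors) ℂ,
      ((evFC N P : FC N) : LaurentSeries ℂ)
        = MvPolynomial.aeval (fun d : N.divisors => ((jFC N d : FC N) : LaurentSeries ℂ)) P := by
    intro P
    simp [evFC]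
  by_cases hQ : evFC N Q = 0
  · refine ⟨0, 1, by simp, ?_⟩
    have h0 : (f : LaurentSeries ℂ) = 0 := by
      rw [hfrs, ← hcoe Q, hQ]
      simp
    have : f = 0 := Subtype.ext h0
    rw [this]
    simp
  · refine ⟨P, Q, hQ, Subtype.ext ?_⟩
    rw [hfrs, ← hcoe P, ← hcoe Q]
    rfl

/-- Every element of `M_ℂ` is represented by a pair of polynomials `(A, B)` with `Θ_ℂ(B) ≠ 0`. -/
theorem exists_rep (f : FC N) :
    ∃ A B : MvPolynomial (N.divisors) ℂ, ThetaC N B ≠ 0 ∧ f * evFC N B = evFC N A := by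
  obtain ⟨P, Q, hQ, rfl⟩ := evFC_frac N f
  exact ⟨P, Q, (ThetaC_ne_zero_iff N Q).mpr hQ, div_mul_cancel₀ _ hQ⟩

/-- Two representations of the same element of `M_ℂ` give the same meromorphic function:
cross-multiplied identity on `ℍ`. -/
theorem ThetaC_cross_of_rep {f : FC N} {A B A' B' : MvPolynomial (N.divisors) ℂ}
    (h : f * evFC N B = evFC N A) (h' : f * evFC N B' = evFC N A') (τ : ℍ) :
    ThetaC N A τ * ThetaC N B' τ = ThetaC N A' τ * ThetaC N B τ := by
  have h1 : evFC N (A * B' - A' * B) = 0 := by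
    rw [map_sub, map_mul, map_mul, ← h, ← h']
    ring
  have h2 := (ThetaC_eq_zero_iff N _).mpr h1
  have h3 := congrFun h2 τ
  rw [map_sub, map_mul, map_mul] at h3
  exact sub_eq_zero.mp h3

/-! ### The embedding `F = ℚ̄(j_d) → M_ℂ` -/

omit [NeZero N] in
theorem coeffMap_iota_coeffEmb (z : LaurentSeries ℚ) :
    coeffMap iota (coeffEmb Kbar z) = coeffEmb ℂ z := by
  rw [coeffEmb, coeffMap_coeffMap]
  exact coeffMap_congr (RingHom.ext fun c => by simp) z

omit [NeZero N] in
theorem coeffMap_iota_algebraMap (a : Kbar) :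
    coeffMap iota (algebraMap Kbar (LaurentSeries Kbar) a)
      = algebraMap ℂ (LaurentSeries ℂ) (iota a) := by
  rw [algebraMap_laurentSeries_eq_single, algebraMap_laurentSeries_eq_single, coeffMap_single]

omit [NeZero N] in
/-- `coeffMap iota` maps `F = ℚ̄(j_d)` into `M_ℂ`. -/
theorem coeffMap_iota_mem {x : LaurentSeries Kbar} (hx : x ∈ modularFunctionFieldBar N) :
    coeffMap iota x ∈ laurentBaseChange ℂ (modularFunctionFieldFull N) := by
  rw [mem_laurentBaseChange_iff] at hx
  induction hx using Subfield.closure_induction with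
  | mem y hy =>
      rcases hy with ⟨a, rfl⟩ | ⟨z, hz, rfl⟩
      · rw [coeffMap_iota_algebraMap]
        exact (laurentBaseChange ℂ (modularFunctionFieldFull N)).algebraMap_mem _
      · rw [coeffMap_iota_coeffEmb]
        exact coeffEmb_mem_laurentBaseChange ℂ hz
  | one => simp
  | add x y _ _ hx hy => simpa using add_mem hx hy
  | neg x _ hx => simpa using neg_mem hx
  | inv x _ hx => simpa using inv_mem hx
  | mul x y _ _ hx hy => simpa using mul_mem hx hy

omit [NeZero N] in
/-- The embedding `F = ℚ̄(j_d) → M_ℂ`, coefficientwise `iota`. -/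
def iotaF : FF N →+* FC N where
  toFun x := ⟨coeffMap iota (x : LaurentSeries Kbar), coeffMap_iota_mem N x.2⟩
  map_zero' := Subtype.ext (map_zero (coeffMap iota))
  map_one' := Subtype.ext (map_one (coeffMap iota))
  map_add' x y := Subtype.ext (map_add (coeffMap iota) (x : LaurentSeries Kbar) y)
  map_mul' x y := Subtype.ext (map_mul (coeffMap iota) (x : LaurentSeries Kbar) y)

omit [NeZero N] in
@[simp] theorem coe_iotaF (x : FF N) :
    ((iotaF N x : FC N) : LaurentSeries ℂ) = coeffMap iota (x : LaurentSeries Kbar) := rfl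

omit [NeZero N] in
theorem iotaF_jF (d : N.divisors) : iotaF N (jF N d) = jFC N d :=
  Subtype.ext (coeffMap_iota_coe_jF N d)

omit [NeZero N] in
theorem iotaF_algebraMap (a : Kbar) :
    iotaF N (algebraMap Kbar (FF N) a) = algebraMap ℂ (FC N) (iota a) :=
  Subtype.ext (coeffMap_iota_algebraMap a)

omit [NeZero N] in
/-- `iotaF` is compatible with the two evaluation maps. -/
theorem iotaF_evF (P : MvPolynomial (N.divisors) Kbar) :
    iotaF N (evF N P) = evFC N (MvPolynomial.map iota P) := by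
  have key : (iotaF N).comp (evF N).toRingHom
      = (evFC N).toRingHom.comp (MvPolynomial.map iota) := by
    apply MvPolynomial.ringHom_ext
    · intro a
      show iotaF N (evF N (MvPolynomial.C a)) = evFC N (MvPolynomial.map iota (MvPolynomial.C a))
      rw [MvPolynomial.map_C, evF, evFC, MvPolynomial.aeval_C, MvPolynomial.aeval_C,
        iotaF_algebraMap]
    · intro d
      show iotaF N (evF N (MvPolynomial.X d)) = evFC N (MvPolynomial.map iota (MvPolynomial.X d))
      rw [MvPolynomial.map_X, evF, evFC, MvPolynomial.aeval_X, MvPolynomial.aeval_X, iotaF_jF]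
  exact congrArg (fun φ : MvPolynomial (N.divisors) Kbar →+* FC N => φ P) key

/-! ### Ring endomorphisms of `ℂ` act on coefficients -/

omit [NeZero N] in
/-- A ring endomorphism `σ` of `ℂ` acts on `M_ℂ ⊂ ℂ((q))` coefficientwise; on `P(j_d)` this is
the action on the coefficients of the polynomial `P` (the `j_d` have rational coefficients). -/
theorem coeffMap_coe_evFC (σ : ℂ →+* ℂ) (P : MvPolynomial (N.divisors) ℂ) :
    coeffMap σ ((evFC N P : FC N) : LaurentSeries ℂ)
      = ((evFC N (MvPolynomial.map σ P) : FC N) : LaurentSeries ℂ) := by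
  have key : (coeffMap σ).comp (evFCL N) = (evFCL N).comp (MvPolynomial.map σ) := by
    apply MvPolynomial.ringHom_ext
    · intro a
      show coeffMap σ ((evFC N (MvPolynomial.C a) : FC N) : LaurentSeries ℂ)
        = ((evFC N (MvPolynomial.map σ (MvPolynomial.C a)) : FC N) : LaurentSeries ℂ)
      rw [MvPolynomial.map_C, coe_evFC_C, coe_evFC_C, HahnSeries.C_apply, coeffMap_single,
        HahnSeries.C_apply]
    · intro d
      show coeffMap σ ((evFC N (MvPolynomial.X d) : FC N) : LaurentSeries ℂ)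
        = ((evFC N (MvPolynomial.map σ (MvPolynomial.X d)) : FC N) : LaurentSeries ℂ)
      rw [MvPolynomial.map_X, coe_evFC_X, coeffMap_qExpand]
      congr 1
      exact map_jqModC σ
  exact congrArg (fun φ : MvPolynomial (N.divisors) ℂ →+* LaurentSeries ℂ => φ P) key

/-! ### (AA) with values in `M_ℂ` -/

/-- **(AA), field form.**  A holomorphic `Γ₀(N)`-invariant function `W` of moderate growth at
all cusps is the function of an element `f` of `M_ℂ`: `f = A(j_d)/B(j_d)` and
`W · Θ_ℂ(B) = Θ_ℂ(A)` on `ℍ`; the expansion of `W` at `i∞` is `f`. -/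
theorem exists_FC_of_invariant {W : ℍ → ℂ} (hW : MDiff W)
    (hinv : ∀ γ ∈ Gamma0 N, ∀ τ : ℍ, W (γ • τ) = W τ)
    (hgrow : ∀ g : SL(2, ℤ), ∃ M : ℕ,
      IsBoundedAtImInfty (fun τ => ModularForm.discriminant τ ^ M * W (g • τ))) :
    ∃ (f : FC N) (A B : MvPolynomial (N.divisors) ℂ), ThetaC N B ≠ 0 ∧
      f * evFC N B = evFC N A ∧ ∀ τ : ℍ, W τ * ThetaC N B τ = ThetaC N A τ := by
  obtain ⟨A, B, hB, hAB⟩ := exists_ThetaC_of_invariant N hW hinv hgrow
  have hB' : evFC N B ≠ 0 := (ThetaC_ne_zero_iff N B).mp hB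
  exact ⟨evFC N A / evFC N B, A, B, hB, div_mul_cancel₀ _ hB', hAB⟩

end Fermat.Agent.S29.H37
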