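/-
S29/S42 Program A, leaf PLACES-C (helper37), part 1: the Taylor embeddings of
`M_ℂ = ℂ(j_d : d ∣ N)` at the points of the upper half plane.

* `phiC N τ₀ x : FC N →+* ℂ((t))` : Taylor expansion at `τ₀` of the `x`-translate;
  `phiC_evFC : phiC N τ₀ x (evFC N P) = ofPowerSeries (taylorAt τ₀ (trf N (ThetaC N P) x))`.
* `exists_sym_poly_C` : the elementary symmetric functions of the translates of `Θ_ℂ(P)` are
  complex polynomials in `J`.
(Port to `(ℂ, id)` of the first half of the landed `S24/H49/FinLocal.lean`.)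
-/
import Fermat.Agent.S29.H37.FieldC
import Fermat.Agent.S24.H49.FinLocal

set_option autoImplicit false

open UpperHalfPlane ModularCurve CongruenceSubgroup Filter Topology
open scoped MatrixGroups Manifold

noncomputable section

namespace Fermat.Agent.S29.H37

open Fermat.Agent.S24

variable (N : ℕ)

/-- `P ↦ trf N (Θ_ℂ(P)) x` as a ring homomorphism. -/
def trfHom (x : XX N) : MvPolynomial (N.divisors) ℂ →+* (ℍ → ℂ) :=
  (precomp (Quotient.out x : SL(2, ℤ))⁻¹).comp (ThetaC N)

theorem trfHom_apply (x : XX N) (P : MvPolynomial (N.divisors) ℂ) :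
    trfHom N x P = trf N (ThetaC N P) x := rfl

/-- The translates as holomorphic functions. -/
def trfHol (x : XX N) : MvPolynomial (N.divisors) ℂ →+* H49.holSubring :=
  (trfHom N x).codRestrict H49.holSubring fun P => mdiff_trf N (mdiff_ThetaC N P) x

theorem trfHol_coe (x : XX N) (P : MvPolynomial (N.divisors) ℂ) :
    (trfHol N x P : ℍ → ℂ) = trf N (ThetaC N P) x := rfl

/-- The polynomial-level Taylor expansion homomorphism at `τ₀`. -/
def PhiC (τ₀ : ℍ) (x : XX N) : MvPolynomial (N.divisors) ℂ →+* LaurentSeries ℂ :=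
  (H49.laurentHom τ₀).comp (trfHol N x)

theorem PhiC_apply (τ₀ : ℍ) (x : XX N) (P : MvPolynomial (N.divisors) ℂ) :
    PhiC N τ₀ x P = HahnSeries.ofPowerSeries ℤ ℂ (taylorAt τ₀ (trf N (ThetaC N P) x)) := rfl

theorem trf_eq_zero_iff (f : ℍ → ℂ) (x : XX N) : trf N f x = 0 ↔ f = 0 := by
  constructor
  · intro h
    funext τ
    have := congrFun h ((Quotient.out x : SL(2, ℤ)) • τ)
    simpa [trf] using this
  · intro h
    funext τ
    simp [trf, h]

variable [NeZero N]

theorem trfHol_eq_zero_iff (x : XX N) (P : MvPolynomial (N.divisors) ℂ) :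
    trfHol N x P = 0 ↔ evFC N P = 0 := by
  rw [← ThetaC_eq_zero_iff, ← trf_eq_zero_iff N (ThetaC N P) x]
  constructor
  · intro h
    have := congrArg Subtype.val h
    exact this
  · intro h
    exact Subtype.ext h

theorem PhiC_eq_zero_iff (τ₀ : ℍ) (x : XX N) (P : MvPolynomial (N.divisors) ℂ) :
    PhiC N τ₀ x P = 0 ↔ evFC N P = 0 := by
  rw [← trfHol_eq_zero_iff N x P]
  constructor
  · intro h
    exact H49.laurentHom_injective τ₀ (by rw [map_zero]; exact h)
  · intro h
    show H49.laurentHom τ₀ (trfHol N x P) = 0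
    rw [h, map_zero]

/-- The Taylor expansion embedding of `M_ℂ` at `τ₀`, for the coset `x`. -/
def phiC (τ₀ : ℍ) (x : XX N) : FC N →+* LaurentSeries ℂ :=
  (exists_unique_extension (evFC N) (evFC_frac N) (PhiC N τ₀ x)
    (PhiC_eq_zero_iff N τ₀ x)).exists.choose

theorem phiC_evFC (τ₀ : ℍ) (x : XX N) (P : MvPolynomial (N.divisors) ℂ) :
    phiC N τ₀ x (evFC N P) = PhiC N τ₀ x P :=
  (exists_unique_extension (evFC N) (evFC_frac N) (PhiC N τ₀ x)
    (PhiC_eq_zero_iff N τ₀ x)).exists.choose_spec P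

theorem phiC_evFC' (τ₀ : ℍ) (x : XX N) (P : MvPolynomial (N.divisors) ℂ) :
    phiC N τ₀ x (evFC N P) = H49.laurentHom τ₀ (trfHol N x P) :=
  phiC_evFC N τ₀ x P

omit [NeZero N] in
theorem evFC_C (a : ℂ) : evFC N (MvPolynomial.C a) = algebraMap ℂ (FC N) a := by
  simp [evFC]

theorem phiC_algebraMap (τ₀ : ℍ) (x : XX N) (a : ℂ) :
    phiC N τ₀ x (algebraMap ℂ (FC N) a) = HahnSeries.C a := by
  rw [← evFC_C, phiC_evFC, PhiC_apply]
  have : trf N (ThetaC N (MvPolynomial.C a)) x = fun _ => a := by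
    funext τ
    simp [trf, ThetaC_C]
  rw [this, taylorAt_const, HahnSeries.ofPowerSeries_C]

omit [NeZero N] in
/-- Precomposition with `γ` permutes the multiset of translates. -/
theorem map_trf_smul [Fintype (XX N)] {f : ℍ → ℂ}
    (hf : ∀ γ ∈ Gamma0 N, ∀ τ : ℍ, f (γ • τ) = f τ) (γ : SL(2, ℤ)) (τ : ℍ) :
    (Finset.univ.val.map fun y : XX N => trf N f y (γ • τ))
      = (Finset.univ.val.map fun y : XX N => trf N f y τ) := by
  have h1 : (fun y : XX N => trf N f y (γ • τ))
      = (fun y : XX N => trf N f y τ) ∘ (MulAction.toPerm γ⁻¹ : Equiv.Perm (XX N)) := by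
    funext y
    simp only [Function.comp_apply, MulAction.toPerm_apply]
    rw [trf_smul N hf, inv_inv]
  rw [h1]
  have h := Multiset.map_univ_val_equiv (MulAction.toPerm γ⁻¹ : Equiv.Perm (XX N))
  conv_rhs => rw [← h, Multiset.map_map]

/-- The elementary symmetric functions of the translates of `Θ_ℂ(P)` are complex polynomials
in `J`. -/
theorem exists_sym_poly_C [Fintype (XX N)] (P : MvPolynomial (N.divisors) ℂ) (k : ℕ) :
    ∃ R : Polynomial ℂ, ∀ τ : ℍ,
      ThetaC N (Polynomial.aeval (MvPolynomial.X (oneDiv N)) R) τ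
        = (Finset.univ.val.map fun y : XX N => trf N (ThetaC N P) y τ).esymm k := by
  set E : ℍ → ℂ := (Finset.univ.val.map fun y : XX N => trf N (ThetaC N P) y).esymm k with hE
  have hEτ : ∀ τ, E τ = (Finset.univ.val.map fun y : XX N => trf N (ThetaC N P) y τ).esymm k :=
    fun τ => H68.esymm_apply _ k τ
  have hmem : E ∈ holoGrowth :=
    H68.esymm_induction (fun f : ℍ → ℂ => f ∈ holoGrowth) holoGrowth.zero_mem holoGrowth.one_mem
      (fun _ _ h h' => holoGrowth.add_mem h h') (fun _ _ h h' => holoGrowth.mul_mem h h') _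
      (fun y => ⟨mdiff_trf N (mdiff_ThetaC N P) y, modGrowth_trf_ThetaC N y P⟩) k
  have hinv : ∀ (γ : SL(2, ℤ)) (τ : ℍ), E (γ • τ) = E τ := fun γ τ => by
    rw [hEτ, hEτ, map_trf_smul N (fun γ hγ τ => ThetaC_smul_of_mem N hγ P τ)]
  obtain ⟨M, hM⟩ := hmem.2
  obtain ⟨R, -, hR⟩ := H6.exists_poly_of_invariant M E hmem.1 hinv hM
  refine ⟨R, fun τ => ?_⟩
  rw [ThetaC_aeval_X_oneDiv, ← hEτ, hR]
  rfl

end Fermat.Agent.S29.H37
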