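/-
S29/S42 Program A, leaf PLACES-C (helper37), part 2: the local data of `M_ℂ = ℂ(j_d : d ∣ N)`
at every finite center `c : ℂ` (structure `S24.LocalData`, which is generic in the constant
field), with the embeddings `phiC N τ_c x` = Taylor expansions at a point `τ_c` with
`J(τ_c) = c`.  (Port to `(ℂ, id)` of the landed `S24/H49/FinLocal.lean`, `S24/FinCenter.lean`.)
-/
import Fermat.Agent.S29.H37.TaylorC
import Fermat.Agent.S24.FinCenter

set_option autoImplicit false

open UpperHalfPlane ModularCurve CongruenceSubgroup Filter Topology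
open scoped MatrixGroups Manifold

noncomputable section

namespace Fermat.Agent.S29.H37

open Fermat.Agent.S24

variable (N : ℕ) [NeZero N]

/-- The element `j` of `M_ℂ`. -/
def jC : FC N := evFC N (MvPolynomial.X (oneDiv N))

omit [NeZero N] in
theorem trf_smul_of_fixed {f : ℍ → ℂ} (hf : ∀ γ ∈ Gamma0 N, ∀ τ : ℍ, f (γ • τ) = f τ)
    (x : XX N) (γ : SL(2, ℤ)) (hγ : γ • x = x) (τ : ℍ) : trf N f x (γ • τ) = trf N f x τ := by
  have h := trf_smul N hf γ⁻¹ x τ
  rw [inv_inv] at h
  rw [← h]
  congr 1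
  rw [inv_smul_eq_iff, hγ]

/-- **Local data of `M_ℂ` at a point `τ₀` over the center `c`.** -/
theorem exists_localData_at_C [Fintype (XX N)] (c : ℂ) (τ₀ : ℍ)
    (γ : SL(2, ℤ)) (hγ : γ • τ₀ = τ₀) (s : ℕ) (hs : 0 < s)
    (hord : analyticOrderAt (fun z : ℂ => Jfun (ofComplex z) - c) (τ₀ : ℂ) = s)
    (hprim : IsPrimitiveRoot (denom (γ : GL (Fin 2) ℝ) τ₀ ^ 2) s)
    (hpow : ∀ (x : XX N) (k : ℕ), γ ^ k • x = x → s ∣ k ∨ γ • x = x) :
    ∃ L : LocalData ℂ (FC N) (XX N) (evFC N).range (jC N - algebraMap ℂ (FC N) c),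
      L.ρ = MulAction.toPerm γ ∧ L.φ = phiC N τ₀ ∧ L.s = s := by
  set Pπ : MvPolynomial (N.divisors) ℂ := MvPolynomial.X (oneDiv N) - MvPolynomial.C c with hPπ
  have hΘinv : ∀ P : MvPolynomial (N.divisors) ℂ, ∀ γ ∈ Gamma0 N, ∀ τ : ℍ,
      ThetaC N P (γ • τ) = ThetaC N P τ := fun P γ hγ τ => ThetaC_smul_of_mem N hγ P τ
  have hevπ : evFC N Pπ = jC N - algebraMap ℂ (FC N) c := by
    rw [hPπ, map_sub, evFC_C]
    rfl
  have htrπ : ∀ x : XX N, trf N (ThetaC N Pπ) x = fun τ => Jfun τ - c := by
    intro x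
    funext τ
    show ThetaC N Pπ ((Quotient.out x : SL(2, ℤ))⁻¹ • τ) = Jfun τ - c
    rw [hPπ, map_sub, Pi.sub_apply, ThetaC_X, ThetaC_C]
    show Jd 1 _ - c = _
    rw [Jd_one, Jfun_smul]
  have hnz : ∀ (x : XX N) (P : MvPolynomial (N.divisors) ℂ), evFC N P ≠ 0 →
      trfHol N x P ≠ 0 := fun x P hP => mt (trfHol_eq_zero_iff N x P).mp hP
  -- constants
  have hC : ∀ (x : XX N) (a : ℂ),
      phiC N τ₀ x (algebraMap ℂ (FC N) a) = HahnSeries.C ((RingHom.id ℂ) a) :=
    fun x a => phiC_algebraMap N τ₀ x a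
  -- the parameter
  have hπ : ∀ x y : XX N, phiC N τ₀ x (jC N - algebraMap ℂ (FC N) c)
      = phiC N τ₀ y (jC N - algebraMap ℂ (FC N) c) := by
    intro x y
    rw [← hevπ, phiC_evFC, phiC_evFC, PhiC_apply, PhiC_apply, htrπ, htrπ]
  -- injectivity
  have hinj : Function.Injective (phiC N τ₀) := by
    intro x y hxy
    apply transl_injective N
    have h1 : phiC N τ₀ x (evFC N (MvPolynomial.X (topDiv N)))
        = phiC N τ₀ y (evFC N (MvPolynomial.X (topDiv N))) := by rw [hxy]
    rw [phiC_evFC', phiC_evFC'] at h1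
    have h2 := congrArg Subtype.val (H49.laurentHom_injective τ₀ h1)
    rw [trfHol_coe, trfHol_coe] at h2
    funext τ
    have h3 := congrFun h2 τ
    simpa [trf, transl, ThetaC_X, Theta_X] using h3
  -- the order of the parameter
  have hsπ : ∀ x : XX N, (phiC N τ₀ x (jC N - algebraMap ℂ (FC N) c)).order = s := by
    intro x
    have hfun : (trfHol N x Pπ : ℍ → ℂ) ∘ ofComplex
        = fun z : ℂ => Jfun (ofComplex z) - c := by
      rw [trfHol_coe, htrπ]; rfl
    have hne : trfHol N x Pπ ≠ 0 := by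
      intro h0
      have h1 : (trfHol N x Pπ : ℍ → ℂ) = 0 := by rw [h0]; rfl
      rw [h1] at hfun
      have h2 : analyticOrderAt (fun z : ℂ => Jfun (ofComplex z) - c) (τ₀ : ℂ) = ⊤ := by
        rw [← hfun, analyticOrderAt_eq_top]
        exact Filter.Eventually.of_forall fun z => rfl
      rw [h2] at hord
      exact ENat.top_ne_natCast s hord
    obtain ⟨n, hn1, hn2⟩ := H49.order_laurentHom τ₀ hne
    rw [← hevπ, phiC_evFC', hn2]
    rw [hfun, hord] at hn1
    have : s = n := by exact_mod_cast hn1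
    rw [this]
  -- monodromy
  have hρ : ∀ (x : XX N) (P : MvPolynomial (N.divisors) ℂ), evFC N P ≠ 0 →
      (phiC N τ₀ ((MulAction.toPerm γ : Equiv.Perm (XX N)) x) (evFC N P)).order
        = (phiC N τ₀ x (evFC N P)).order := by
    intro x P hP
    rw [MulAction.toPerm_apply]
    obtain ⟨n1, h11, h12⟩ := H49.order_laurentHom τ₀ (hnz (γ • x) P hP)
    obtain ⟨n2, h21, h22⟩ := H49.order_laurentHom τ₀ (hnz x P hP)
    rw [phiC_evFC', phiC_evFC', h12, h22]
    have hfun : (trfHol N (γ • x) P : ℍ → ℂ) = fun τ => trf N (ThetaC N P) x (γ⁻¹ • τ) :=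
      funext fun τ => trf_smul N (hΘinv P) γ x τ
    have hfix : γ⁻¹ • τ₀ = τ₀ := by rw [inv_smul_eq_iff, hγ]
    rw [hfun, analyticOrderAt_comp_smul τ₀ (mdiff_trf N (mdiff_ThetaC N P) x) γ⁻¹, hfix] at h11
    rw [trfHol_coe, h11] at h21
    have : n1 = n2 := by exact_mod_cast h21
    rw [this]
  -- divisibility
  have hdvd : ∀ (x : XX N) (P : MvPolynomial (N.divisors) ℂ) (k : ℕ),
      ((MulAction.toPerm γ : Equiv.Perm (XX N)) ^ k) x = x → evFC N P ≠ 0 →
      (s : ℤ) ∣ k * (phiC N τ₀ x (evFC N P)).order := by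
    intro x P k hk hP
    rw [H49.toPerm_pow_apply] at hk
    rcases hpow x k hk with h | h
    · exact Dvd.dvd.mul_right (by exact_mod_cast h) _
    · obtain ⟨n, hn1, hn2⟩ := H49.order_laurentHom τ₀ (hnz x P hP)
      rw [phiC_evFC', hn2]
      have hinv : ∀ τ, trf N (ThetaC N P) x (γ • τ) = trf N (ThetaC N P) x τ := fun τ =>
        trf_smul_of_fixed N (hΘinv P) x γ h τ
      have hdiv := dvd_analyticOrderAt_of_fixed τ₀ (mdiff_trf N (mdiff_ThetaC N P) x) γ hγ hinv
        s n hprim hn1
      exact Dvd.dvd.mul_left (by exact_mod_cast hdiv) _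
  -- symmetric functions
  have hsym : ∀ (P : MvPolynomial (N.divisors) ℂ) (k : ℕ),
      ∃ ε ∈ IntermediateField.adjoin ℂ {jC N - algebraMap ℂ (FC N) c}, ∀ x : XX N,
        phiC N τ₀ x ε = (Finset.univ.val.map fun y => phiC N τ₀ y (evFC N P)).esymm k := by
    intro P k
    obtain ⟨r, hr⟩ := exists_sym_poly_C N P k
    refine ⟨evFC N (Polynomial.aeval (MvPolynomial.X (oneDiv N)) r), ?_, fun x => ?_⟩
    · have h1 : evFC N (Polynomial.aeval (MvPolynomial.X (oneDiv N)) r)
          = Polynomial.aeval (jC N) r := by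
        rw [← Polynomial.aeval_algHom_apply]
        rfl
      rw [h1]
      have hj : jC N ∈ IntermediateField.adjoin ℂ {jC N - algebraMap ℂ (FC N) c} := by
        have hπmem := IntermediateField.mem_adjoin_simple_self ℂ
          (jC N - algebraMap ℂ (FC N) c)
        have hc := (IntermediateField.adjoin ℂ
          {jC N - algebraMap ℂ (FC N) c}).algebraMap_mem c
        have := add_mem hπmem hc
        simpa using this
      have hle : Algebra.adjoin ℂ {jC N} ≤ (IntermediateField.adjoin ℂ
          {jC N - algebraMap ℂ (FC N) c}).toSubalgebra :=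
        Algebra.adjoin_le (Set.singleton_subset_iff.mpr hj)
      exact hle (Polynomial.aeval_mem_adjoin_singleton _ _)
    · rw [phiC_evFC']
      have hE : trfHol N x (Polynomial.aeval (MvPolynomial.X (oneDiv N)) r)
          = (Finset.univ.val.map fun y => trfHol N y P).esymm k := by
        apply Subtype.ext
        funext τ
        have hR := H49.map_esymm_univ
          ((Pi.evalRingHom (fun _ : ℍ => ℂ) τ).comp H49.holSubring.subtype)
          (fun y => trfHol N y P) k
        have hL : (trfHol N x (Polynomial.aeval (MvPolynomial.X (oneDiv N)) r) : ℍ → ℂ) τ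
            = (Finset.univ.val.map fun y : XX N => trf N (ThetaC N P) y τ).esymm k := by
          show ThetaC N _ ((Quotient.out x : SL(2, ℤ))⁻¹ • τ) = _
          rw [hr]
          exact congrArg (fun m : Multiset ℂ => m.esymm k)
            (map_trf_smul N (hΘinv P) (Quotient.out x : SL(2, ℤ))⁻¹ τ)
        rw [hL]
        exact hR.symm
      rw [hE, H49.map_esymm_univ]
      simp only [phiC_evFC']
  obtain ⟨L, hLρ, hLφ⟩ := H49.exists_localData_of_poly (evFC N) (evFC_frac N)
    (jC N - algebraMap ℂ (FC N) c) (RingHom.id ℂ) (phiC N τ₀) hC hπ hinj s hs hsπ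
    (MulAction.toPerm γ) hρ hdvd hsym
  refine ⟨L, hLρ, hLφ, ?_⟩
  obtain ⟨x⟩ : Nonempty (XX N) := ⟨QuotientGroup.mk 1⟩
  have h1 := L.order_π x
  rw [hLφ, hsπ x] at h1
  exact_mod_cast h1.symm

open scoped Classical in
/-- A point of the upper half plane over the center `c : ℂ`. -/
def centerPtC (c : ℂ) : ℍ :=
  if c = 0 then ellRho else if c = 1728 then UpperHalfPlane.I
  else (Jfun_surjective c).choose

theorem Jfun_centerPtC (c : ℂ) : Jfun (centerPtC c) = c := by
  unfold centerPtC
  split_ifs with h0 h1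
  · rw [h0]
    exact Jfun_rho
  · rw [h1]
    exact Jfun_I
  · exact (Jfun_surjective c).choose_spec

open scoped Classical in
/-- The local monodromy at the center `c : ℂ`. -/
def centerPermC (c : ℂ) : Equiv.Perm (XX N) :=
  if c = 0 then MulAction.toPerm (ModularGroup.S * ModularGroup.T)
  else if c = 1728 then MulAction.toPerm ModularGroup.S else 1

/-- **Local data of `M_ℂ` at every finite center.**  The ramification parameter `s` is `1`, `2`
or `3`. -/
theorem exists_localData_fin_C [Fintype (XX N)] (c : ℂ) :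
    ∃ L : LocalData ℂ (FC N) (XX N) (evFC N).range (jC N - algebraMap ℂ (FC N) c),
      L.ρ = centerPermC N c ∧ L.φ = phiC N (centerPtC c) ∧ (L.s = 1 ∨ L.s = 2 ∨ L.s = 3) := by
  by_cases h0 : c = 0
  · have hpt : centerPtC c = ellRho := if_pos h0
    have hperm : centerPermC N c = MulAction.toPerm (ModularGroup.S * ModularGroup.T) :=
      if_pos h0
    rw [hpt, hperm]
    obtain ⟨L, h1, h2, h3⟩ := exists_localData_at_C N c ellRho
      (ModularGroup.S * ModularGroup.T) H64.ST_smul_rho 3 (by norm_num)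
      (by
        rw [h0]
        simpa using analyticOrderAt_Jfun_rho) isPrimitiveRoot_denom_ST
      (fun x k hk => H49.dvd_or_smul_eq_of_pow_smul (ModularGroup.S * ModularGroup.T)
        Nat.prime_three (Fermat.Agent.S20.H46.ST_cube_smul N) x k hk)
    exact ⟨L, h1, h2, Or.inr (Or.inr h3)⟩
  · by_cases h1 : c = 1728
    · have hpt : centerPtC c = UpperHalfPlane.I := by
        unfold centerPtC
        rw [if_neg h0, if_pos h1]
      have hperm : centerPermC N c = MulAction.toPerm ModularGroup.S := by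
        unfold centerPermC
        rw [if_neg h0, if_pos h1]
      rw [hpt, hperm]
      obtain ⟨L, h1', h2, h3⟩ := exists_localData_at_C N c UpperHalfPlane.I ModularGroup.S
        H64.S_smul_I 2 (by norm_num)
        (by
          rw [h1]
          exact_mod_cast analyticOrderAt_Jfun_I) isPrimitiveRoot_denom_S
        (fun x k hk => H49.dvd_or_smul_eq_of_pow_smul ModularGroup.S Nat.prime_two
          (Fermat.Agent.S20.H46.S_sq_smul N) x k hk)
      exact ⟨L, h1', h2, Or.inr (Or.inl h3)⟩
    · have hperm : centerPermC N c = MulAction.toPerm (1 : SL(2, ℤ)) := by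
        unfold centerPermC
        rw [if_neg h0, if_neg h1]
        ext x
        simp
      have hτ : Jfun (centerPtC c) = c := Jfun_centerPtC c
      have hJ0 : Jfun (centerPtC c) ≠ 0 := by rw [hτ]; exact h0
      have hJ1 : Jfun (centerPtC c) ≠ 1728 := by rw [hτ]; exact h1
      rw [hperm]
      obtain ⟨L, h1', h2, h3⟩ := exists_localData_at_C N c (centerPtC c) 1 (one_smul _ _) 1
        one_pos
        (by
          have := analyticOrderAt_Jfun_generic (centerPtC c) hJ0 hJ1
          rw [hτ] at this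
          exact_mod_cast this)
        (by
          rw [IsPrimitiveRoot.one_right_iff]
          simp [denom])
        (fun x k _ => Or.inl (one_dvd k))
      exact ⟨L, h1', h2, Or.inl h3⟩

end Fermat.Agent.S29.H37
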