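/-
S29/S42 Program A, leaf PLACES-C (helper37), part 3: places of `M_ℂ = ℂ(j_d : d ∣ N)` with
finite center versus analytic orders on the upper half plane.

* `exists_center_C`     : a place `v` with `j ∈ v` has a center `c : ℂ`;
* `exists_rel_C` (COMP) : every such place is induced by a Taylor embedding `phiC N τ_c x`
  (landed generic `LocalData.exists_rel_of_place`);
* `dvd_ord_of_dvd_order` (P1): for a prime `p ≥ 5`, if all Taylor orders of `u` are divisible
  by `p` then `p ∣ v.ord u` at every place with finite center;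
* `dvd_order_of_dvd_ord` (P2): conversely (any `p`);
* `dvd_order_of_pow_eq`, `dvd_ord_of_pow_eq` : the hypothesis of (P1) for `u` whose function is
  a `p`-th power of a quotient of holomorphic functions.
-/
import Fermat.Agent.S29.H37.LocalC
import Fermat.Agent.S24.Global

set_option autoImplicit false

open UpperHalfPlane ModularCurve CongruenceSubgroup Filter Topology AlgebraicCurve
open scoped MatrixGroups Manifold

noncomputable section

namespace Fermat.Agent.S29.H37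

open Fermat.Agent.S24

variable (N : ℕ) [NeZero N]

theorem hfracC (f : FC N) :
    ∃ a ∈ (evFC N).range, ∃ b ∈ (evFC N).range, b ≠ 0 ∧ f = a / b := by
  obtain ⟨P, Q, hQ, rfl⟩ := evFC_frac N f
  exact ⟨evFC N P, ⟨P, rfl⟩, evFC N Q, ⟨Q, rfl⟩, hQ, rfl⟩

theorem ThetaC_X_oneDiv : ThetaC N (MvPolynomial.X (oneDiv N)) = Jfun := by
  rw [ThetaC_X]
  exact Jd_one

/-- `J - c` is not the zero function. -/
theorem ThetaC_X_sub_C_ne_zero (c : ℂ) :
    ThetaC N (MvPolynomial.X (oneDiv N) - MvPolynomial.C c) ≠ 0 := by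
  intro h
  obtain ⟨τ, hτ⟩ := Jfun_surjective (c + 1)
  have h1 := congrFun h τ
  rw [map_sub, Pi.sub_apply, ThetaC_X_oneDiv, ThetaC_C, hτ] at h1
  simp at h1

theorem jC_sub_ne_zero (c : ℂ) : jC N - algebraMap ℂ (FC N) c ≠ 0 := by
  have h := (ThetaC_ne_zero_iff N _).mp (ThetaC_X_sub_C_ne_zero N c)
  rw [map_sub, evFC_C] at h
  exact h

theorem jC_ne_zero : jC N ≠ 0 := by
  have h := jC_sub_ne_zero N 0
  rwa [map_zero, sub_zero] at h

/-- `M_ℂ` is algebraic over `ℂ(j)`. -/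
theorem isAlgebraic_jC : Algebra.IsAlgebraic (IntermediateField.adjoin ℂ {jC N}) (FC N) := by
  classical
  have : Fintype (XX N) := Fintype.ofFinite _
  have : Nonempty (XX N) := ⟨QuotientGroup.mk 1⟩
  obtain ⟨L, -, -, -⟩ := exists_localData_fin_C N 0
  have h0 : jC N - algebraMap ℂ (FC N) 0 = jC N := by simp
  have halg0 : Algebra.IsAlgebraic (IntermediateField.adjoin ℂ {jC N - algebraMap ℂ (FC N) 0})
      (FC N) := L.isAlgebraic (hfracC N)
  exact h0 ▸ halg0

/-- A place of `M_ℂ` at which `j` is regular has a center `c : ℂ`. -/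
theorem exists_center_C (v : Place ℂ (FC N)) (hv : jC N ∈ v.toValuationSubring) :
    ∃ c : ℂ, 0 < v.ord (jC N - algebraMap ℂ (FC N) c) := by
  have := isAlgebraic_jC N
  rcases exists_center (jC N) v with h | h
  · exfalso
    have h1 := (mem_iff_ord_nonneg v (jC_ne_zero N)).mp hv
    omega
  · exact h

/-- **COMP.**  Every place `v` of `M_ℂ` with center `c : ℂ` is induced by the Taylor embedding at
`τ_c = centerPtC c` of some translate `x`: `order (phiC N τ_c x f) · v.ord (j - c) = s · v.ord f`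
for all `f`, with `s ∈ {1, 2, 3}`. -/
theorem exists_rel_C (v : Place ℂ (FC N)) (c : ℂ)
    (hc : 0 < v.ord (jC N - algebraMap ℂ (FC N) c)) :
    ∃ (x : XX N) (s : ℕ), (s = 1 ∨ s = 2 ∨ s = 3) ∧ ∀ f : FC N,
      (phiC N (centerPtC c) x f).order * v.ord (jC N - algebraMap ℂ (FC N) c) = s * v.ord f := by
  classical
  have : Fintype (XX N) := Fintype.ofFinite _
  have : Nonempty (XX N) := ⟨QuotientGroup.mk 1⟩
  obtain ⟨L, -, hφ, hs⟩ := exists_localData_fin_C N c
  obtain ⟨x, hx⟩ := L.exists_rel_of_place (hfracC N) v hc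
  refine ⟨x, L.s, hs, fun f => ?_⟩
  have h := hx f
  have hφ' : L.φ x f = phiC N (centerPtC c) x f := by rw [hφ]
  rw [hφ'] at h
  exact h

/-- **(P1).**  Let `p ≥ 5` be prime and `u ∈ M_ℂ` such that all Taylor orders of (the translates
of) `u` on `ℍ` are divisible by `p`.  Then `p ∣ v.ord u` for every place `v` of `M_ℂ` at which
`j` is regular. -/
theorem dvd_ord_of_dvd_order {p : ℕ} (hp : p.Prime) (hp5 : 5 ≤ p) {u : FC N}
    (h : ∀ (z : ℍ) (x : XX N), (p : ℤ) ∣ (phiC N z x u).order)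
    (v : Place ℂ (FC N)) (hv : jC N ∈ v.toValuationSubring) : (p : ℤ) ∣ v.ord u := by
  obtain ⟨c, hc⟩ := exists_center_C N v hv
  obtain ⟨x, s, hs, hrel⟩ := exists_rel_C N v c hc
  have h1 : (p : ℤ) ∣ (s : ℤ) * v.ord u := by
    rw [← hrel u]
    exact Dvd.dvd.mul_right (h _ x) _
  have hnd : ¬ p ∣ s := by
    intro hd
    have hs0 : 0 < s := by omega
    have := Nat.le_of_dvd hs0 hd
    omega
  have hcop : IsCoprime (p : ℤ) (s : ℤ) :=
    Nat.isCoprime_iff_coprime.mpr ((Nat.Prime.coprime_iff_not_dvd hp).mpr hnd)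
  exact hcop.dvd_of_dvd_mul_left h1

/-- The order of the Taylor embedding on `P(j_d)` is the analytic order of the translate. -/
theorem order_phiC_evFC (z : ℍ) (x : XX N) {P : MvPolynomial (N.divisors) ℂ}
    (hP : evFC N P ≠ 0) :
    ∃ n : ℕ, analyticOrderAt (trf N (ThetaC N P) x ∘ ofComplex) (z : ℂ) = n ∧
      (phiC N z x (evFC N P)).order = n := by
  have hne : trfHol N x P ≠ 0 := mt (trfHol_eq_zero_iff N x P).mp hP
  obtain ⟨n, hn1, hn2⟩ := H49.order_laurentHom z hne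
  exact ⟨n, hn1, by rw [phiC_evFC']; exact hn2⟩

/-- The Taylor embedding at `z` has a pole somewhere: `1/(j - J(z'))` for the relevant `z'`. -/
theorem exists_order_phiC_neg (z : ℍ) (x : XX N) :
    ∃ f : FC N, f ≠ 0 ∧ (phiC N z x f).order < 0 := by
  set c : ℂ := Jfun z with hc
  set Pπ : MvPolynomial (N.divisors) ℂ := MvPolynomial.X (oneDiv N) - MvPolynomial.C c with hPπ
  have hPne : evFC N Pπ ≠ 0 := (ThetaC_ne_zero_iff N _).mp (ThetaC_X_sub_C_ne_zero N c)
  obtain ⟨n, hn1, hn2⟩ := order_phiC_evFC N z x hPne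
  have htr : trf N (ThetaC N Pπ) x = fun τ => Jfun τ - c := by
    funext τ
    show ThetaC N Pπ ((Quotient.out x : SL(2, ℤ))⁻¹ • τ) = Jfun τ - c
    rw [hPπ, map_sub, Pi.sub_apply, ThetaC_X_oneDiv, ThetaC_C, Jfun_smul]
  have han : AnalyticAt ℂ (trf N (ThetaC N Pπ) x ∘ ofComplex) (z : ℂ) :=
    TaylorAux.analyticAt (mdiff_trf N (mdiff_ThetaC N Pπ) x) z
  have hn0 : n ≠ 0 := by
    intro h0
    rw [h0] at hn1
    have h1 : analyticOrderAt (trf N (ThetaC N Pπ) x ∘ ofComplex) (z : ℂ) = 0 := by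
      rw [hn1]; rfl
    rw [analyticOrderAt_eq_zero] at h1
    rcases h1 with h1 | h1
    · exact h1 han
    · apply h1
      rw [htr]
      simp [hc, ofComplex_apply]
  refine ⟨(evFC N Pπ)⁻¹, inv_ne_zero hPne, ?_⟩
  rw [map_inv₀, lorder_inv, hn2]
  have : (0 : ℤ) < n := by exact_mod_cast Nat.pos_of_ne_zero hn0
  omega

/-- The place `V_z` of the Taylor embedding at `z` (of the translate `x`). -/
def placeAt (z : ℍ) (x : XX N) : Place ℂ (FC N) :=
  H52.laurentPlace (phiC N z x)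
    (fun a _ => by rw [phiC_algebraMap]; exact (HahnSeries.order_C).ge)
    (exists_order_phiC_neg N z x)

theorem exists_placeAt_ord_eq (z : ℍ) (x : XX N) :
    ∃ e : ℤ, 0 < e ∧ ∀ f : FC N, f ≠ 0 → (phiC N z x f).order = e * (placeAt N z x).ord f :=
  H52.exists_laurentPlace_ord_eq (phiC N z x) _ _

theorem mem_placeAt_iff (z : ℍ) (x : XX N) (f : FC N) :
    f ∈ (placeAt N z x).toValuationSubring ↔ 0 ≤ (phiC N z x f).order :=
  H52.mem_laurentPlace_iff (phiC N z x) _ _ f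

theorem jC_mem_placeAt (z : ℍ) (x : XX N) : jC N ∈ (placeAt N z x).toValuationSubring := by
  rw [mem_placeAt_iff]
  obtain ⟨n, -, hn⟩ := order_phiC_evFC N z x (P := MvPolynomial.X (oneDiv N)) (jC_ne_zero N)
  show 0 ≤ (phiC N z x (evFC N (MvPolynomial.X (oneDiv N)))).order
  rw [hn]
  exact Int.natCast_nonneg n

/-- **(P2).**  If `p ∣ v.ord u` for every place `v` of `M_ℂ` at which `j` is regular, then all
Taylor orders of (the translates of) `u` on `ℍ` are divisible by `p`. -/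
theorem dvd_order_of_dvd_ord {p : ℕ} {u : FC N}
    (h : ∀ v : Place ℂ (FC N), jC N ∈ v.toValuationSubring → (p : ℤ) ∣ v.ord u)
    (z : ℍ) (x : XX N) : (p : ℤ) ∣ (phiC N z x u).order := by
  by_cases hu : u = 0
  · rw [hu, map_zero, HahnSeries.order_zero]
    exact dvd_zero _
  obtain ⟨e, -, he⟩ := exists_placeAt_ord_eq N z x
  rw [he u hu]
  exact Dvd.dvd.mul_left (h _ (jC_mem_placeAt N z x)) _

/-- The Taylor order of `u = A(j_d)/B(j_d)`. -/
theorem order_phiC_of_rep (z : ℍ) (x : XX N) {u : FC N} {A B : MvPolynomial (N.divisors) ℂ}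
    (hA : evFC N A ≠ 0) (hB : evFC N B ≠ 0) (hu : u * evFC N B = evFC N A) :
    ∃ n m : ℕ, analyticOrderAt (trf N (ThetaC N A) x ∘ ofComplex) (z : ℂ) = n ∧
      analyticOrderAt (trf N (ThetaC N B) x ∘ ofComplex) (z : ℂ) = m ∧
      (phiC N z x u).order = (n : ℤ) - m := by
  obtain ⟨n, hn1, hn2⟩ := order_phiC_evFC N z x hA
  obtain ⟨m, hm1, hm2⟩ := order_phiC_evFC N z x hB
  refine ⟨n, m, hn1, hm1, ?_⟩
  have hu0 : u ≠ 0 := by
    rintro rfl
    rw [zero_mul] at hu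
    exact hA hu.symm
  have h1 : phiC N z x u * phiC N z x (evFC N B) = phiC N z x (evFC N A) := by
    rw [← map_mul, hu]
  have h2 := lorder_mul ((map_ne_zero (phiC N z x)).mpr hu0) ((map_ne_zero (phiC N z x)).mpr hB)
  rw [h1, hn2, hm2] at h2
  omega

/-- If the function of `u = A(j_d)/B(j_d)` is the `p`-th power of a quotient `V₁/V₂` of
holomorphic functions, then all Taylor orders of (the translates of) `u` are divisible
by `p`. -/
theorem dvd_order_of_pow_eq {p : ℕ} {u : FC N} {A B : MvPolynomial (N.divisors) ℂ}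
    (hB : evFC N B ≠ 0) (hu : u * evFC N B = evFC N A) {V₁ V₂ : ℍ → ℂ}
    (hV₁ : MDiff V₁) (hV₂ : MDiff V₂) (hV₂0 : V₂ ≠ 0)
    (hpow : ∀ τ : ℍ, V₁ τ ^ p * ThetaC N B τ = V₂ τ ^ p * ThetaC N A τ)
    (z : ℍ) (x : XX N) : (p : ℤ) ∣ (phiC N z x u).order := by
  by_cases hA : evFC N A = 0
  · have hu0 : u = 0 := by
      rw [hA] at hu
      exact (mul_eq_zero.mp hu).resolve_right hB
    rw [hu0, map_zero, HahnSeries.order_zero]
    exact dvd_zero _
  obtain ⟨n, m, hn, hm, hord⟩ := order_phiC_of_rep N z x hA hB hu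
  rw [hord]
  -- the translated identity
  set g : SL(2, ℤ) := (Quotient.out x : SL(2, ℤ))⁻¹ with hg
  set W₁ : ℍ → ℂ := fun τ => V₁ (g • τ) with hW₁
  set W₂ : ℍ → ℂ := fun τ => V₂ (g • τ) with hW₂
  have hW₁d : MDiff W₁ := mdiff_trf N hV₁ x
  have hW₂d : MDiff W₂ := mdiff_trf N hV₂ x
  have hid : (W₁ ^ p * trf N (ThetaC N B) x) = (W₂ ^ p * trf N (ThetaC N A) x) := by
    funext τ
    exact hpow (g • τ)
  have a₁ := TaylorAux.analyticAt hW₁d z
  have a₂ := TaylorAux.analyticAt hW₂d z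
  have aA := TaylorAux.analyticAt (mdiff_trf N (mdiff_ThetaC N A) x) z
  have aB := TaylorAux.analyticAt (mdiff_trf N (mdiff_ThetaC N B) x) z
  have hid' : (W₁ ∘ ofComplex) ^ p * (trf N (ThetaC N B) x ∘ ofComplex)
      = (W₂ ∘ ofComplex) ^ p * (trf N (ThetaC N A) x ∘ ofComplex) := by
    funext w
    exact congrFun hid (ofComplex w)
  have h1 : analyticOrderAt ((W₁ ∘ ofComplex) ^ p * (trf N (ThetaC N B) x ∘ ofComplex)) (z : ℂ)
      = analyticOrderAt ((W₂ ∘ ofComplex) ^ p * (trf N (ThetaC N A) x ∘ ofComplex)) (z : ℂ) := by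
    rw [hid']
  rw [analyticOrderAt_mul (a₁.pow p) aB, analyticOrderAt_mul (a₂.pow p) aA,
    analyticOrderAt_pow a₁, analyticOrderAt_pow a₂, hn, hm] at h1
  -- `W₂` is not identically zero, so its order is finite; then so is the order of `W₁`
  have hW₂0 : W₂ ≠ 0 := by
    intro h0
    apply hV₂0
    funext τ
    have := congrFun h0 (g⁻¹ • τ)
    simpa [hW₂] using this
  have hfin₂ : analyticOrderAt (W₂ ∘ ofComplex) (z : ℂ) ≠ ⊤ := by
    intro htop
    have h3 : (H49.taylorHom z ⟨W₂, hW₂d⟩) = 0 := by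
      rw [H49.taylorHom_apply]
      have := order_taylorAt z hW₂d
      rw [htop, PowerSeries.order_eq_top] at this
      exact this
    have h4 := H49.taylorHom_injective z (h3.trans (map_zero _).symm)
    exact hW₂0 (congrArg Subtype.val h4)
  obtain ⟨k₂, hk₂⟩ := ENat.ne_top_iff_exists.mp hfin₂
  rw [← hk₂] at h1
  by_cases hp0 : p = 0
  · subst hp0
    simp only [zero_smul, zero_add] at h1
    have h7 : m = n := by exact_mod_cast h1
    rw [h7, sub_self]
    exact dvd_zero _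
  have hfin₁ : analyticOrderAt (W₁ ∘ ofComplex) (z : ℂ) ≠ ⊤ := by
    intro htop
    rw [htop] at h1
    have htop' : (p • (⊤ : ℕ∞)) = ⊤ := by
      rw [nsmul_eq_mul]
      exact ENat.mul_top (by exact_mod_cast hp0)
    rw [htop', top_add] at h1
    have h8 : ((p • (k₂ : ℕ∞) + (n : ℕ∞)) : ℕ∞) = ((p * k₂ + n : ℕ) : ℕ∞) := by
      push_cast
      rw [nsmul_eq_mul]
    rw [h8] at h1
    exact ENat.natCast_ne_top _ h1.symm
  obtain ⟨k₁, hk₁⟩ := ENat.ne_top_iff_exists.mp hfin₁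
  rw [← hk₁] at h1
  have h5 : p * k₁ + m = p * k₂ + n := by
    have : ((p • (k₁ : ℕ∞) + (m : ℕ∞)) : ℕ∞) = ((p • (k₂ : ℕ∞) + (n : ℕ∞)) : ℕ∞) := h1
    rw [nsmul_eq_mul, nsmul_eq_mul] at this
    exact_mod_cast this
  refine ⟨(k₁ : ℤ) - k₂, ?_⟩
  have h6 : ((p * k₁ + m : ℕ) : ℤ) = ((p * k₂ + n : ℕ) : ℤ) := by rw [h5]
  push_cast at h6
  linear_combination (-1 : ℤ) * h6

/-- **(P holds for `p`-th powers).**  Let `p ≥ 5` be prime.  If the function of
`u = A(j_d)/B(j_d) ∈ M_ℂ` is the `p`-th power of a quotient `V₁/V₂` of holomorphic functions on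
`ℍ`, then `p ∣ v.ord u` for every place `v` of `M_ℂ` at which `j` is regular. -/
theorem dvd_ord_of_pow_eq {p : ℕ} (hp : p.Prime) (hp5 : 5 ≤ p) {u : FC N}
    {A B : MvPolynomial (N.divisors) ℂ} (hB : evFC N B ≠ 0) (hu : u * evFC N B = evFC N A)
    {V₁ V₂ : ℍ → ℂ} (hV₁ : MDiff V₁) (hV₂ : MDiff V₂) (hV₂0 : V₂ ≠ 0)
    (hpow : ∀ τ : ℍ, V₁ τ ^ p * ThetaC N B τ = V₂ τ ^ p * ThetaC N A τ)
    (v : Place ℂ (FC N)) (hv : jC N ∈ v.toValuationSubring) : (p : ℤ) ∣ v.ord u :=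
  dvd_ord_of_dvd_order N hp hp5
    (fun z x => dvd_order_of_pow_eq N hB hu hV₁ hV₂ hV₂0 hpow z x) v hv

/-- **(P2), analytic form.**  If `p ∣ v.ord u` for every place `v` of `M_ℂ` at which `j` is
regular and `u = A(j_d)/B(j_d)`, then at every point `z` of `ℍ` the difference of the analytic
orders of `Θ_ℂ(A)` and `Θ_ℂ(B)` is divisible by `p`. -/
theorem dvd_analyticOrder_of_dvd_ord {p : ℕ} {u : FC N}
    (h : ∀ v : Place ℂ (FC N), jC N ∈ v.toValuationSubring → (p : ℤ) ∣ v.ord u)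
    {A B : MvPolynomial (N.divisors) ℂ} (hA : evFC N A ≠ 0) (hB : evFC N B ≠ 0)
    (hu : u * evFC N B = evFC N A) (z : ℍ) :
    ∃ n m : ℕ, analyticOrderAt (ThetaC N A ∘ ofComplex) (z : ℂ) = n ∧
      analyticOrderAt (ThetaC N B ∘ ofComplex) (z : ℂ) = m ∧ (p : ℤ) ∣ (n : ℤ) - m := by
  have hinv : ∀ P : MvPolynomial (N.divisors) ℂ, ∀ γ ∈ Gamma0 N, ∀ τ : ℍ,
      ThetaC N P (γ • τ) = ThetaC N P τ := fun P γ hγ τ => ThetaC_smul_of_mem N hγ P τ
  obtain ⟨n, m, hn, hm, hord⟩ :=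
    order_phiC_of_rep N z (QuotientGroup.mk 1 : XX N) hA hB hu
  rw [trf_one N (hinv A)] at hn
  rw [trf_one N (hinv B)] at hm
  refine ⟨n, m, hn, hm, ?_⟩
  rw [← hord]
  exact dvd_order_of_dvd_ord N h z _

end Fermat.Agent.S29.H37
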