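/-
S29/S42 Program A (helper37): leaf `LeafAN3` of the AJ-core skeleton
`Fermat/Agent/S42/H96/Skeleton.lean` (designer helper96) for a PRIME `p ≥ 5`
(the case needed by S42), directly from the landed `dvd_ord_of_pow_eq` of `PlacesC.lean`.

* `leafAN3_of_prime N p (hp : p.Prime) (hp5 : 5 ≤ p) : S42.H96.LeafAN3 N p`

For a prime `p ≥ 5` the character plays no role: the ramification indices of `M_ℂ / ℂ(j)` at
finite places divide `2` or `3`, hence are prime to `p`.
-/
import Fermat.Agent.S29.H37.Leaves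
import Fermat.Agent.S29.H37.PlacesC

set_option autoImplicit false

open UpperHalfPlane ModularCurve CongruenceSubgroup Filter Topology AlgebraicCurve
open scoped MatrixGroups Manifold

noncomputable section

namespace Fermat.Agent.S29.H37

open Fermat.Agent.S24

/-- The generator `j = j_1` of the skeleton is the `jC` of `LocalC.lean`. -/
theorem jC_one_eq (N : ℕ) [NeZero N] : S42.H96.jC N (oneDiv N) = jC N := by
  rw [jC_eq]
  unfold jC evFC
  rw [MvPolynomial.aeval_X]

/-- A root datum over `ℂ` for `g` forces `p ∣ ord_v g` at every place of `M_ℂ` over a finite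
value of `j`, for a prime `p ≥ 5` (no condition on the character). -/
theorem pc_of_hasRootC (N p : ℕ) [NeZero N] (hp : p.Prime) (hp5 : 5 ≤ p)
    (ψ : Additive (Gamma0 N) →+ ZMod p) (g : S42.H96.MC N) (h : S42.H96.HasRootC N p ψ g) :
    S42.H96.PC N p g := by
  obtain ⟨c, b, G, hb, hgb, hG, hGp, -⟩ := h
  rw [evC_eq] at hb hgb
  rw [thetaC_eq] at hGp
  intro v hv
  rw [jC_one_eq] at hv
  have hB : evFC N (b ^ p) ≠ 0 := by
    rw [map_pow]
    exact pow_ne_zero _ hb
  have hu : g * evFC N (b ^ p) = evFC N c := by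
    rw [map_pow]
    exact hgb
  have hV₂0 : ThetaC N b ≠ 0 := (ThetaC_ne_zero_iff N b).mpr hb
  refine dvd_ord_of_pow_eq N hp hp5 hB hu hG (mdiff_ThetaC N b) hV₂0 (fun τ => ?_) v hv
  rw [← hGp τ, map_pow]
  simp only [Pi.pow_apply]
  ring

/-- **Leaf `LeafAN3`** of the AJ-core skeleton, for a prime `p ≥ 5`. -/
theorem leafAN3_of_prime (N p : ℕ) [NeZero N] (hp : p.Prime) (hp5 : 5 ≤ p) :
    S42.H96.LeafAN3 N p :=
  fun ψ _ g _ h => pc_of_hasRootC N p hp hp5 ψ g h

end Fermat.Agent.S29.H37
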