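/-
S29/S42 Program A (helper37): leaves `LeafDict` and `LeafAN2` of the AJ-core skeleton
`Fermat/Agent/S42/H96/Skeleton.lean` (designer helper96), VERBATIM.

* `leafDict N : S42.H96.LeafDict N`
* `leafAN2 N p (hp : p ≠ 0) : S42.H96.LeafAN2 N p`   (needs `[NeZero N]`)

The definitions `MC`, `jC`, `evC`, `ThetaC` of `S42/H96/Defs.lean` are definitionally equal to
`FC`, `jFC`, `evFC`, `ThetaC` of `S29/H37` (`evC_eq`, `thetaC_eq`).
-/
import Fermat.Agent.S42.H96.Skeleton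
import Fermat.Agent.S29.H37.FieldC

set_option autoImplicit false

open UpperHalfPlane ModularCurve CongruenceSubgroup Filter Topology
open scoped MatrixGroups Manifold

noncomputable section

namespace Fermat.Agent.S29.H37

open Fermat.Agent.S24

/-! ### Bridge between the two sets of definitions -/

theorem evC_eq (N : ℕ) : S42.H96.evC N = evFC N := rfl

theorem thetaC_eq (N : ℕ) : S42.H96.ThetaC N = ThetaC N := rfl

theorem jC_eq (N : ℕ) (d : N.divisors) : S42.H96.jC N d = jFC N d := rfl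

/-! ### Leaf 1: the dictionary -/

/-- **Leaf `LeafDict`** of the AJ-core skeleton. -/
theorem leafDict (N : ℕ) : S42.H96.LeafDict N := by
  intro C
  refine ⟨?_, ?_⟩
  · show ((S42.H96.evC N (MvPolynomial.map iota C) : S42.H96.MC N) : LaurentSeries ℂ)
      = coeffMap iota ((evF N C : FF N) : LaurentSeries Kbar)
    rw [evC_eq, ← iotaF_evF]
    rfl
  · rw [thetaC_eq]
    exact ThetaC_map_iota N C

/-! ### The character `ζ_p ^ ψ` has exponent `p` -/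

theorem zetaP_pow (p : ℕ) (hp : p ≠ 0) : S42.H96.zetaP p ^ p = 1 := by
  unfold S42.H96.zetaP
  rw [← Complex.exp_nat_mul]
  have hp' : (p : ℂ) ≠ 0 := by exact_mod_cast hp
  have : (p : ℂ) * (2 * Real.pi * Complex.I / p) = 2 * Real.pi * Complex.I := by
    field_simp
  rw [this, Complex.exp_two_pi_mul_I]

theorem chiOf_pow {N : ℕ} (p : ℕ) (hp : p ≠ 0) (ψ : Additive (Gamma0 N) →+ ZMod p)
    (γ : Gamma0 N) : S42.H96.chiOf p ψ γ ^ p = 1 := by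
  unfold S42.H96.chiOf
  rw [← pow_mul, mul_comm, pow_mul, zetaP_pow p hp, one_pow]

/-! ### Leaf 7: two root data with the same character differ by a `p`-th power -/

/-- **Leaf `LeafAN2`** of the AJ-core skeleton: if `g₁, g₂ ∈ M_ℂ` have holomorphic `p`-th roots
with the same character, then `g₁ = g₂ · w ^ p` with `w ∈ M_ℂ` (analytic = algebraic over `ℂ`
applied to `G₁ · G₂ ^ (p - 1)`). -/
theorem leafAN2 (N p : ℕ) [NeZero N] (hp : p ≠ 0) : S42.H96.LeafAN2 N p := by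
  intro ψ g₁ g₂ hg₁ hg₂ h₁ h₂
  obtain ⟨c₁, b₁, G₁, hb₁, hgb₁, hG₁, hGp₁, hχ₁⟩ := h₁
  obtain ⟨c₂, b₂, G₂, hb₂, hgb₂, hG₂, hGp₂, hχ₂⟩ := h₂
  rw [evC_eq] at hb₁ hgb₁ hb₂ hgb₂
  rw [thetaC_eq] at hGp₁ hGp₂
  obtain ⟨k, rfl⟩ : ∃ k, p = k + 1 := Nat.exists_eq_succ_of_ne_zero hp
  -- nonvanishing of the numerators
  have hc₁ : evFC N c₁ ≠ 0 := by
    rw [← hgb₁]
    exact mul_ne_zero hg₁ (pow_ne_zero _ hb₁)
  have hc₂ : evFC N c₂ ≠ 0 := by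
    rw [← hgb₂]
    exact mul_ne_zero hg₂ (pow_ne_zero _ hb₂)
  -- the invariant function `V = G₁ · G₂ ^ k`
  set V : ℍ → ℂ := fun τ => G₁ τ * G₂ τ ^ k with hV
  have hVd : MDiff V := hG₁.mul (hG₂.pow k)
  have hVinv : ∀ γ ∈ Gamma0 N, ∀ τ : ℍ, V (γ • τ) = V τ := by
    intro γ hγ τ
    have e₁ := hχ₁ ⟨γ, hγ⟩ τ
    have e₂ := hχ₂ ⟨γ, hγ⟩ τ
    have e₃ := chiOf_pow (k + 1) hp ψ ⟨γ, hγ⟩
    show G₁ (γ • τ) * G₂ (γ • τ) ^ k = G₁ τ * G₂ τ ^ k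
    rw [e₁, e₂, mul_pow]
    have : S42.H96.chiOf (k + 1) ψ ⟨γ, hγ⟩ * G₁ τ
        * (S42.H96.chiOf (k + 1) ψ ⟨γ, hγ⟩ ^ k * G₂ τ ^ k)
        = S42.H96.chiOf (k + 1) ψ ⟨γ, hγ⟩ ^ (k + 1) * (G₁ τ * G₂ τ ^ k) := by ring
    rw [this, e₃, one_mul]
  have hVpow : ∀ τ : ℍ, V τ ^ (k + 1) = ThetaC N (c₁ * c₂ ^ k) τ := by
    intro τ
    rw [map_mul, map_pow, Pi.mul_apply, Pi.pow_apply, ← hGp₁ τ, ← hGp₂ τ]
    show (G₁ τ * G₂ τ ^ k) ^ (k + 1) = _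
    ring
  obtain ⟨A, B, hB, hAB⟩ := exists_ThetaC_of_pow_eq N hVd hVinv (Nat.succ_pos k) _ hVpow
  have hB' : evFC N B ≠ 0 := (ThetaC_ne_zero_iff N B).mp hB
  -- the key identity `c₁ · B^p · c₂^k = A^p` in `M_ℂ`
  have hkey : evFC N c₁ * evFC N B ^ (k + 1) * evFC N c₂ ^ k = evFC N A ^ (k + 1) := by
    have h0 : evFC N (c₁ * B ^ (k + 1) * c₂ ^ k - A ^ (k + 1)) = 0 := by
      rw [← ThetaC_eq_zero_iff]
      funext τ
      rw [map_sub, map_mul, map_mul, map_pow, map_pow, map_pow, Pi.sub_apply, Pi.mul_apply,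
        Pi.mul_apply, Pi.pow_apply, Pi.pow_apply, Pi.pow_apply, Pi.zero_apply, ← hAB τ,
        ← hGp₁ τ, ← hGp₂ τ]
      show G₁ τ ^ (k + 1) * ThetaC N B τ ^ (k + 1) * (G₂ τ ^ (k + 1)) ^ k
        - (G₁ τ * G₂ τ ^ k * ThetaC N B τ) ^ (k + 1) = 0
      ring
    rw [map_sub, map_mul, map_mul, map_pow, map_pow, map_pow] at h0
    exact sub_eq_zero.mp h0
  have hA' : evFC N A ≠ 0 := by
    intro h0
    rw [h0, zero_pow (Nat.succ_ne_zero k)] at hkey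
    exact mul_ne_zero (mul_ne_zero hc₁ (pow_ne_zero _ hB')) (pow_ne_zero _ hc₂) hkey
  -- the `p`-th root
  have hden : evFC N B * evFC N c₂ * evFC N b₁ ≠ 0 := mul_ne_zero (mul_ne_zero hB' hc₂) hb₁
  refine ⟨evFC N A * evFC N b₂ / (evFC N B * evFC N c₂ * evFC N b₁),
    div_ne_zero (mul_ne_zero hA' hb₂) hden, ?_⟩
  have h1 : g₁ * (evFC N B * evFC N c₂ * evFC N b₁) ^ (k + 1)
      = g₂ * (evFC N A * evFC N b₂) ^ (k + 1) := by
    have e1 : g₁ * (evFC N B * evFC N c₂ * evFC N b₁) ^ (k + 1)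
        = (g₁ * evFC N b₁ ^ (k + 1)) * evFC N B ^ (k + 1) * evFC N c₂ ^ k * evFC N c₂ := by ring
    have e2 : g₂ * (evFC N A * evFC N b₂) ^ (k + 1)
        = (g₂ * evFC N b₂ ^ (k + 1)) * evFC N A ^ (k + 1) := by ring
    rw [e1, e2, hgb₁, hgb₂, hkey]
    ring
  rw [div_pow, mul_div_assoc', eq_div_iff (pow_ne_zero _ hden)]
  exact h1

end Fermat.Agent.S29.H37
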